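import Fermat.Agent.WP.Jc
import Fermat.Agent.ECP.Count

set_option autoImplicit false

/-!
# `#E[n] = n²`
-/

namespace Fermat.Agent.WP

open PeriodPair WeierstrassCurve WeierstrassCurve.Affine
  WeierstrassCurve.Affine.Point Fermat.Agent.ECP

noncomputable section

section Complex

variable {L : PeriodPair} {W : WeierstrassCurve ℂ} [W.IsElliptic] (h : Unif L W)

/-- the torsion point with coordinates `(i, j)` -/
def torPt (n : ℕ) (ij : Fin n × Fin n) : W.toAffine.Point :=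
  psi h (((ij.1 : ℕ) * L.ω₁ + (ij.2 : ℕ) * L.ω₂) / n)

include h in
theorem card_torsion_aux {n : ℕ} (hn : 0 < n) :
    Nat.card {P : W.toAffine.Point // n • P = 0} = n ^ 2 := by
  have hn0 : (n : ℂ) ≠ 0 := by exact_mod_cast hn.ne'
  have hmem : ∀ ij : Fin n × Fin n, n • torPt h n ij = 0 := by
    intro ij
    rw [torPt, ← psi_nsmul, psi_eq_zero_iff, mul_div_cancel₀ _ hn0, mem_lattice]
    exact ⟨(ij.1 : ℕ), (ij.2 : ℕ), by push_cast; rfl⟩
  have hbij : Function.Bijective
      (fun ij : Fin n × Fin n => (⟨torPt h n ij, hmem ij⟩ : {P : W.toAffine.Point // n • P = 0})) := by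
    constructor
    · rintro ⟨i, j⟩ ⟨i', j'⟩ hij
      have h1 : torPt h n (i, j) = torPt h n (i', j') := congrArg Subtype.val hij
      rw [torPt, torPt, psi_eq_iff, mem_lattice] at h1
      obtain ⟨a, b, hab⟩ := h1
      have hind := L.indep
      rw [LinearIndependent.pair_iff] at hind
      have h2 := hind ((a : ℝ) * n - ((i : ℕ) : ℝ) + ((i' : ℕ) : ℝ))
        ((b : ℝ) * n - ((j : ℕ) : ℝ) + ((j' : ℕ) : ℝ)) (by
          simp only [Complex.real_smul]
          push_cast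
          have h3 : (n : ℂ) * (a * L.ω₁ + b * L.ω₂) =
              (((i : ℕ) : ℂ) * L.ω₁ + ((j : ℕ) : ℂ) * L.ω₂) -
                (((i' : ℕ) : ℂ) * L.ω₁ + ((j' : ℕ) : ℂ) * L.ω₂) := by
            rw [hab]
            field_simp
          linear_combination h3)
      have e1 : (a : ℤ) * n - ((i : ℕ) : ℤ) + ((i' : ℕ) : ℤ) = 0 := by exact_mod_cast h2.1
      have e2 : (b : ℤ) * n - ((j : ℕ) : ℤ) + ((j' : ℕ) : ℤ) = 0 := by exact_mod_cast h2.2
      have key : ∀ (a : ℤ) (i i' : Fin n), a * n - ((i : ℕ) : ℤ) + ((i' : ℕ) : ℤ) = 0 →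
          i = i' := by
        intro a i i' he
        have hi := i.2
        have hi' := i'.2
        have ha : a = 0 := by
          by_contra hne
          rcases lt_or_gt_of_ne hne with h | h
          · have : a * n ≤ -1 * n := mul_le_mul_of_nonneg_right (by omega) (by positivity)
            omega
          · have : 1 * (n : ℤ) ≤ a * n := mul_le_mul_of_nonneg_right (by omega) (by positivity)
            omega
        apply Fin.ext
        rw [ha] at he
        omega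
      exact Prod.ext (key a i i' e1) (key b j j' e2)
    · rintro ⟨P, hP⟩
      obtain ⟨z, rfl⟩ := psi_surjective h P
      rw [← psi_nsmul, psi_eq_zero_iff, mem_lattice] at hP
      obtain ⟨a, b, hab⟩ := hP
      have hnz : (n : ℤ) ≠ 0 := by exact_mod_cast hn.ne'
      have hfin : ∀ a : ℤ, ∃ (i : Fin n) (q : ℤ), a = (i : ℕ) + n * q := by
        intro a
        have h0 := Int.emod_nonneg a hnz
        have h1 : a % n < n := Int.emod_lt_of_pos a (by exact_mod_cast hn)
        refine ⟨⟨(a % n).toNat, by omega⟩, a / n, ?_⟩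
        have h2 : (((a % n).toNat : ℕ) : ℤ) = a % n := Int.toNat_of_nonneg h0
        show a = (((a % n).toNat : ℕ) : ℤ) + n * (a / n)
        rw [h2]
        exact (Int.emod_add_mul_ediv a n).symm
      obtain ⟨i, q, hi⟩ := hfin a
      obtain ⟨j, r, hj⟩ := hfin b
      refine ⟨(i, j), Subtype.ext ?_⟩
      show psi h _ = psi h z
      rw [psi_eq_iff, mem_lattice]
      refine ⟨-q, -r, ?_⟩
      have hz : z = (a * L.ω₁ + b * L.ω₂) / n := by
        rw [hab]; field_simp
      rw [hz, hi, hj]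
      push_cast
      field_simp
      ring
  rw [← Nat.card_congr (Equiv.ofBijective _ hbij), Nat.card_prod, Nat.card_fin, pow_two]

end Complex

theorem card_torsion_complex (W : WeierstrassCurve ℂ) [W.IsElliptic] {n : ℕ} (hn : 0 < n) :
    Nat.card {P : W.toAffine.Point // n • P = 0} = n ^ 2 := by
  obtain ⟨τ, s, hs, h⟩ := exists_unif W (W.coe_Δ' ▸ W.Δ'.ne_zero)
  exact card_torsion_aux h hn

section Descend

variable {K : Type*} [Field K] [IsAlgClosed K] [Algebra ℚ K] (f : K →ₐ[ℚ] ℂ)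
  {W' : WeierstrassCurve ℚ}

omit [Algebra ℚ K] in
lemma mem_range_of_root [CharZero K] (f : K →+* ℂ) {g : Polynomial K} (hg : g ≠ 0) {x : ℂ}
    (hx : (g.map f).eval x = 0) : ∃ r, f r = x := by
  have h1 : x ∈ (g.map f).roots := by
    rw [Polynomial.mem_roots ((Polynomial.map_ne_zero_iff f.injective).mpr hg)]
    exact hx
  rw [(IsAlgClosed.splits g).roots_map] at h1
  obtain ⟨r, -, hr⟩ := Multiset.mem_map.mp h1
  exact ⟨r, hr⟩

variable [DecidableEq K]

/-- a point of `W(ℂ)` with algebraic `x`-coordinate is algebraic -/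
lemma mem_range_map_of_xc {P : (W'⁄ℂ).Point} {r : K} (hr : f r = xc P) :
    P ∈ Set.range (Affine.Point.map (W' := W') f) := by
  by_cases hP : P = 0
  · exact ⟨0, by rw [hP]; rfl⟩
  obtain ⟨x, y, hxy, rfl⟩ := exists_eq_some hP
  rw [xc_some] at hr
  subst hr
  -- the quadratic equation for `y`
  have heq := (Affine.equation_iff ..).mp hxy.1
  have hq : ∃ r' : K, r' * r' + ((W'⁄K).a₁ * r + (W'⁄K).a₃) * r' =
      r ^ 3 + (W'⁄K).a₂ * r ^ 2 + (W'⁄K).a₄ * r + (W'⁄K).a₆ := by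
    obtain ⟨s, hs⟩ := IsAlgClosed.exists_root
      (Polynomial.X ^ 2 + Polynomial.C ((W'⁄K).a₁ * r + (W'⁄K).a₃) * Polynomial.X
        - Polynomial.C (r ^ 3 + (W'⁄K).a₂ * r ^ 2 + (W'⁄K).a₄ * r + (W'⁄K).a₆)) (by
        intro h0
        have h1 : (Polynomial.X ^ 2 + Polynomial.C ((W'⁄K).a₁ * r + (W'⁄K).a₃) * Polynomial.X
          - Polynomial.C (r ^ 3 + (W'⁄K).a₂ * r ^ 2 + (W'⁄K).a₄ * r + (W'⁄K).a₆)
            : Polynomial K).natDegree = 2 := by compute_degree!
        rw [Polynomial.natDegree_eq_of_degree_eq_some h0] at h1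
        exact absurd h1 (by norm_num))
    refine ⟨s, ?_⟩
    simp only [Polynomial.IsRoot.def, Polynomial.eval_sub, Polynomial.eval_add,
      Polynomial.eval_mul, Polynomial.eval_pow, Polynomial.eval_X, Polynomial.eval_C] at hs
    linear_combination hs
  obtain ⟨s, hs⟩ := hq
  -- over `ℂ` : `y = f s` or `y = - f s - a₁ x - a₃`
  have ha₁ : (W'⁄ℂ).a₁ = f (W'⁄K).a₁ := by simp
  have ha₂ : (W'⁄ℂ).a₂ = f (W'⁄K).a₂ := by simp
  have ha₃ : (W'⁄ℂ).a₃ = f (W'⁄K).a₃ := by simp
  have ha₄ : (W'⁄ℂ).a₄ = f (W'⁄K).a₄ := by simp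
  have ha₆ : (W'⁄ℂ).a₆ = f (W'⁄K).a₆ := by simp
  have hs' := congrArg f hs
  simp only [map_add, map_mul, map_pow] at hs'
  rw [ha₁, ha₂, ha₃, ha₄, ha₆] at heq
  have hfac : (y - f s) * (y + f s + f (W'⁄K).a₁ * f r + f (W'⁄K).a₃) = 0 := by
    linear_combination heq - hs'
  obtain ⟨r', hr'⟩ : ∃ r' : K, f r' = y := by
    rcases mul_eq_zero.mp hfac with h1 | h1
    · exact ⟨s, (sub_eq_zero.mp h1).symm⟩
    · refine ⟨-s - (W'⁄K).a₁ * r - (W'⁄K).a₃, ?_⟩
      rw [map_sub, map_sub, map_neg, map_mul]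
      linear_combination -h1
  subst hr'
  exact ⟨Point.some r r' ((W'.toAffine.baseChange_nonsingular (f := f) f.injective ..).mp hxy), rfl⟩

variable [W'.IsElliptic]

omit [W'.IsElliptic] in
theorem torsion_mem_range [CharZero K] {P : (W'⁄ℂ).Point} {n : ℕ} (hn : 0 < n)
    (hP : n • P = 0) : P ∈ Set.range (Affine.Point.map (W' := W') f) := by
  classical
  by_cases hP0 : P = 0
  · exact ⟨0, by rw [hP0]; rfl⟩
  have hfin : IsOfFinAddOrder P := isOfFinAddOrder_iff_nsmul_eq_zero.mpr ⟨n, hn, hP⟩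
  set m := addOrderOf P with hm
  have hmpos : 0 < m := hfin.addOrderOf_pos
  have hm1 : m ≠ 1 := fun h => hP0 (AddMonoid.addOrderOf_eq_one_iff.mp h)
  have hw := wc_eq_zero_of_order (P := P) m (by omega) (fun k hk1 hk2 hk =>
    absurd (addOrderOf_dvd_of_nsmul_eq_zero hk) (fun hd => by
      have := Nat.le_of_dvd (by omega) hd; omega)) (addOrderOf_nsmul_eq_zero P)
  rw [wc_eq_preΨ' hP0] at hw
  -- a nonzero polynomial over `K` vanishing at `x(P)`
  have hx : ((((W'⁄K).preΨ' m) * (W'⁄K).Ψ₂Sq).map (f : K →+* ℂ)).eval (xc P) = 0 := by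
    have e1 : ((W'⁄K).preΨ' m).map (f : K →+* ℂ) = (W'⁄ℂ).preΨ' m := by
      rw [← WeierstrassCurve.map_preΨ']
      congr 1
      exact W'.map_map _ _ |>.trans (by congr 1; exact f.comp_algebraMap)
    have e2 : ((W'⁄K).Ψ₂Sq).map (f : K →+* ℂ) = (W'⁄ℂ).Ψ₂Sq := by
      rw [← WeierstrassCurve.map_Ψ₂Sq]
      congr 1
      exact W'.map_map _ _ |>.trans (by congr 1; exact f.comp_algebraMap)
    rw [Polynomial.map_mul, e1, e2, Polynomial.eval_mul, ← tc_sq' hP0]
    rcases mul_eq_zero.mp hw with h1 | h1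
    · rw [h1, zero_mul]
    · split_ifs at h1 with he
      · rw [h1]; ring
      · exact absurd h1 one_ne_zero
  have hne : ((W'⁄K).preΨ' m) * (W'⁄K).Ψ₂Sq ≠ 0 := by
    refine mul_ne_zero ((W'⁄K).preΨ'_ne_zero (by exact_mod_cast hmpos.ne')) ?_
    apply (W'⁄K).Ψ₂Sq_ne_zero
    norm_num
  obtain ⟨r, hr⟩ := mem_range_of_root (f : K →+* ℂ) hne hx
  exact mem_range_map_of_xc f hr

theorem card_torsion_complex' (W' : WeierstrassCurve ℚ) [W'.IsElliptic] {n : ℕ} (hn : 0 < n) :
    Nat.card {P : (W'⁄ℂ).Point // n • P = 0} = n ^ 2 :=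
  card_torsion_complex (W'.map (algebraMap ℚ ℂ)) hn

include f in
theorem card_torsion [CharZero K] {n : ℕ} (hn : 0 < n) :
    Nat.card {P : (W'⁄K).Point // n • P = 0} = n ^ 2 := by
  classical
  rw [← card_torsion_complex' W' hn]
  refine Nat.card_congr (Equiv.ofBijective
    (fun P => ⟨Affine.Point.map (W' := W') f P.1, ?_⟩) ⟨?_, ?_⟩)
  · show n • (Affine.Point.map (W' := W') f P.1) = 0
    rw [← map_nsmul, P.2]; rfl
  · intro P Q hPQ
    exact Subtype.ext (Affine.Point.map_injective f (congrArg Subtype.val hPQ))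
  · rintro ⟨P, hP⟩
    obtain ⟨Q, rfl⟩ := torsion_mem_range f hn hP
    refine ⟨⟨Q, ?_⟩, rfl⟩
    apply Affine.Point.map_injective f
    rw [map_nsmul]
    exact hP

end Descend

end

end Fermat.Agent.WP
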