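import Fermat.Agent.WP.Tau

set_option autoImplicit false

/-!
# `j`-invariants of quotients by finite subgroups of odd order, via a `2`-torsion point
-/

namespace Fermat.Agent.WP

open PeriodPair WeierstrassCurve WeierstrassCurve.Affine
  WeierstrassCurve.Affine.Point Fermat.Agent.ECP Fermat.Agent.JInv Fermat.Agent.X0Places
  UpperHalfPlane

noncomputable section

section Def

variable {F : Type*} [Field F] {W : WeierstrassCurve.Affine F}

/-- `x(c) - x(T)` -/
def Xr (T c : W.Point) : F := xc c - xc T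

/-- `B = b₂ + 12 x(T)` -/
def B0 (T : W.Point) : F := W.b₂ + 12 * xc T

/-- `β = 3 x(T)² + (b₂ x(T) + b₄)/2` -/
def be0 (T : W.Point) : F := 3 * xc T ^ 2 + (W.b₂ * xc T + W.b₄) / 2

/-- `B` of the quotient by the subgroup with nonzero elements `D` -/
def BC (T : W.Point) (D : Finset W.Point) : F :=
  B0 T + 12 * ∑ c ∈ D, (be0 T / Xr T c - Xr T c)

/-- `β` of the quotient by the subgroup with nonzero elements `D` -/
def beC (T : W.Point) (D : Finset W.Point) : F :=
  be0 T ^ (D.card + 1) / (∏ c ∈ D, Xr T c) ^ 2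

/-- `j` of the quotient by the subgroup with nonzero elements `D` -/
def jC (T : W.Point) (D : Finset W.Point) : F :=
  (BC T D ^ 2 - 48 * beC T D) ^ 3 / (beC T D ^ 2 * (BC T D ^ 2 - 64 * beC T D))

end Def

section Complex

variable {L : PeriodPair} {W : WeierstrassCurve ℂ} [W.IsElliptic] (h : Unif L W)

lemma sec_mem_iff {P : W.toAffine.Point} : sec h P ∈ L.lattice ↔ P = 0 := by
  rw [← psi_eq_zero_iff h, psi_sec]

lemma P_sec {P : W.toAffine.Point} (hP : P ≠ 0) : ℘[L] (sec h P) = xc P + W.b₂ / 12 := by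
  have h1 := xc_psi h (z := sec h P) (fun h0 => hP ((sec_mem_iff h).mp h0))
  rw [psi_sec] at h1
  rw [h1]; ring

lemma XX_sec {T c : W.toAffine.Point} (hT : T ≠ 0) (hc : c ≠ 0) :
    XX L (sec h T) (sec h c) = Xr T c := by
  rw [XX, P_sec h hT, P_sec h hc, Xr]; ring

lemma B0_eq {T : W.toAffine.Point} (hT : T ≠ 0) : 12 * ℘[L] (sec h T) = B0 T := by
  rw [P_sec h hT, B0, show WeierstrassCurve.b₂ W.toAffine = W.b₂ from rfl]; ring

lemma bet_eq {T : W.toAffine.Point} (hT : T ≠ 0) : bet L (sec h T) = be0 T := by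
  have hg2 := h.g2
  simp only [WeierstrassCurve.c₄] at hg2
  rw [bet, P_sec h hT, be0, show WeierstrassCurve.b₂ W.toAffine = W.b₂ from rfl,
    show WeierstrassCurve.b₄ W.toAffine = W.b₄ from rfl]
  linear_combination -hg2 / 48

lemma isHalf_sec {T : W.toAffine.Point} (hT : T ≠ 0) (h2T : (2 : ℕ) • T = 0) :
    IsHalf L (sec h T) := by
  refine ⟨fun h0 => hT ((sec_mem_iff h).mp h0), ?_⟩
  rw [← psi_eq_zero_iff h]
  have := psi_nsmul h 2 (sec h T)
  rw [psi_sec, h2T] at this
  exact_mod_cast this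

variable {C : AddSubgroup W.toAffine.Point} {Cf : Finset W.toAffine.Point}
  (hCf : ∀ P, P ∈ Cf ↔ P ∈ C) {L' : PeriodPair} (hL' : L'.lattice = preim h C)

include hCf in
omit [W.IsElliptic] in
lemma two_torsion_not_mem {T : W.toAffine.Point} (hT : T ≠ 0) (h2T : (2 : ℕ) • T = 0)
    (hodd : Odd Cf.card) : T ∉ C := by
  classical
  intro hTC
  have hcard : Nat.card C = Cf.card := by
    have e : C ≃ Cf := Equiv.subtypeEquivRight (fun P => (hCf P).symm)
    rw [Nat.card_congr e, Nat.card_eq_fintype_card, Fintype.card_coe]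
  have hfin : Finite C := Nat.finite_of_card_ne_zero (by
    rw [hcard]; intro h0; rw [h0] at hodd; exact (by decide : ¬ Odd 0) hodd)
  have h1 : addOrderOf (⟨T, hTC⟩ : C) ∣ Nat.card C := addOrderOf_dvd_natCard _
  have h2 : addOrderOf (⟨T, hTC⟩ : C) = 2 := by
    refine addOrderOf_eq_prime (Subtype.ext h2T) ?_
    intro h0
    exact hT (congrArg Subtype.val h0)
  rw [h2, hcard] at h1
  exact (Nat.not_even_iff_odd.mpr hodd) (even_iff_two_dvd.mpr h1)

open Classical in
include hCf hL' in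
lemma halfReps_sec {T : W.toAffine.Point} (hT : T ≠ 0) (h2T : (2 : ℕ) • T = 0)
    (hodd : Odd Cf.card) : HalfReps L L' (Cf.image (sec h)) (sec h T) where
  toReps := reps_of_subgroup h C Cf hCf hL'
  two_mem := (isHalf_sec h hT h2T).two_mem
  not_mem := by
    rw [hL', mem_preim, psi_sec]
    exact two_torsion_not_mem hCf hT h2T hodd

open Classical in
lemma image_erase_sec (Cf : Finset W.toAffine.Point) : (Cf.image (sec h)).erase 0 = (Cf.erase 0).image (sec h) := by
  rw [Finset.image_erase (sec_injective h), sec_zero]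

open Classical in
include hCf hL' in
theorem BC_eq {T : W.toAffine.Point} (hT : T ≠ 0) (h2T : (2 : ℕ) • T = 0)
    (hodd : Odd Cf.card) : 12 * ℘[L'] (sec h T) = BC T (Cf.erase 0) := by
  rw [P_half_sup (halfReps_sec h hCf hL' hT h2T hodd), mul_add, B0_eq h hT, BC,
    image_erase_sec h Cf, Finset.sum_image (fun a _ b _ hab => sec_injective h hab)]
  congr 2
  refine Finset.sum_congr rfl fun c hc => ?_
  rw [Finset.mem_erase] at hc
  rw [XX_sec h hT hc.1, bet_eq h hT]

open Classical in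
include hCf hL' in
theorem beC_eq {T : W.toAffine.Point} (hT : T ≠ 0) (h2T : (2 : ℕ) • T = 0)
    (hodd : Odd Cf.card) : bet L' (sec h T) = beC T (Cf.erase 0) := by
  have H := halfReps_sec h hCf hL' hT h2T hodd
  have h1 := bet_sup H
  rw [image_erase_sec h Cf, Finset.prod_image (fun a _ b _ hab => sec_injective h hab),
    Finset.card_image_of_injective _ (sec_injective h), bet_eq h hT] at h1
  have h2 : ∏ c ∈ Cf.erase 0, XX L (sec h T) (sec h c) = ∏ c ∈ Cf.erase 0, Xr T c := by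
    refine Finset.prod_congr rfl fun c hc => ?_
    rw [Finset.mem_erase] at hc
    exact XX_sec h hT hc.1
  have h3 : ∏ c ∈ Cf.erase 0, Xr T c ≠ 0 := by
    rw [← h2]
    refine Finset.prod_ne_zero_iff.mpr fun c hc => ?_
    rw [Finset.mem_erase] at hc
    refine XX_ne_zero H.half (fun h0 => hc.1 ((sec_mem_iff h).mp h0)) ?_
    apply H.add_not_mem
    rw [hL', mem_preim, psi_sec]
    exact (hCf c).mp hc.2
  rw [h2] at h1
  have h4 : (Cf.erase 0).card + 1 = Cf.card := by
    have h5 : (0 : W.toAffine.Point) ∈ Cf := (hCf 0).mpr (zero_mem C)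
    rw [Finset.card_erase_of_mem h5]
    have := Finset.card_pos.mpr ⟨_, h5⟩
    omega
  rw [beC, h4, eq_div_iff (pow_ne_zero 2 h3), h1]

open Classical in
include hCf hL' in
theorem jC_eq {T : W.toAffine.Point} (hT : T ≠ 0) (h2T : (2 : ℕ) • T = 0)
    (hodd : Odd Cf.card) : jLat L' = jC T (Cf.erase 0) := by
  have H := halfReps_sec h hCf hL' hT h2T hodd
  rw [jLat_eq H.half', jBb, BC_eq h hCf hL' hT h2T hodd, beC_eq h hCf hL' hT h2T hodd, jC]

end Complex

section Exist

variable {W : WeierstrassCurve ℂ} [W.IsElliptic]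

open Classical in
/-- `j` of a quotient does not depend on the choice of the `2`-torsion point. -/
theorem jC_indep {C : AddSubgroup W.toAffine.Point} {Cf : Finset W.toAffine.Point}
    (hCf : ∀ P, P ∈ Cf ↔ P ∈ C) (hodd : Odd Cf.card) {T T' : W.toAffine.Point} (hT : T ≠ 0)
    (h2T : (2 : ℕ) • T = 0) (hT' : T' ≠ 0) (h2T' : (2 : ℕ) • T' = 0) :
    jC T (Cf.erase 0) = jC T' (Cf.erase 0) := by
  obtain ⟨τ, s, hs, h⟩ := exists_unif W (W.coe_Δ' ▸ W.Δ'.ne_zero)
  have hfin : (C : Set W.toAffine.Point).Finite := by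
    have : (C : Set W.toAffine.Point) = Cf := by ext P; simp [hCf]
    rw [this]; exact Cf.finite_toSet
  obtain ⟨L', hL'⟩ := exists_lattice h C hfin
  rw [← jC_eq h hCf hL' hT h2T hodd, ← jC_eq h hCf hL' hT' h2T' hodd]

open Classical in
/-- consecutive cyclic quotients of prime degree: `(j(τ), j(pτ))`. -/
theorem exists_tau_jC {p : ℕ} (hp : p.Prime) {C C' : AddSubgroup W.toAffine.Point}
    {Cf Cf' : Finset W.toAffine.Point} (hCf : ∀ P, P ∈ Cf ↔ P ∈ C) (hCf' : ∀ P, P ∈ Cf' ↔ P ∈ C')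
    (hodd : Odd Cf.card) (hodd' : Odd Cf'.card) {c : W.toAffine.Point} (hc : c ∉ C)
    (hpc : p • c ∈ C) (hC' : ∀ P, P ∈ C' ↔ ∃ k : ℤ, P - k • c ∈ C) {T : W.toAffine.Point}
    (hT : T ≠ 0) (h2T : (2 : ℕ) • T = 0) :
    ∃ τ : ℍ, jC T (Cf.erase 0) = jInv τ ∧ jC T (Cf'.erase 0) = jInv (scaleH p hp.pos τ) := by
  obtain ⟨τ, s, hs, h⟩ := exists_unif W (W.coe_Δ' ▸ W.Δ'.ne_zero)
  have hfin : (C : Set W.toAffine.Point).Finite := by
    have : (C : Set W.toAffine.Point) = Cf := by ext P; simp [hCf]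
    rw [this]; exact Cf.finite_toSet
  have hfin' : (C' : Set W.toAffine.Point).Finite := by
    have : (C' : Set W.toAffine.Point) = Cf' := by ext P; simp [hCf']
    rw [this]; exact Cf'.finite_toSet
  obtain ⟨L, hL⟩ := exists_lattice h C hfin
  obtain ⟨L', hL'⟩ := exists_lattice h C' hfin'
  rw [← jC_eq h hCf hL hT h2T hodd, ← jC_eq h hCf' hL' hT h2T hodd']
  refine exists_tau hp (c := sec h c) ?_ ?_ ?_
  · rw [hL, mem_preim, psi_sec]; exact hc
  · rw [hL, mem_preim, psi_nsmul, psi_sec]; exact hpc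
  · intro x
    rw [hL', mem_preim, hC']
    refine exists_congr fun k => ?_
    rw [hL, mem_preim, sub_eq_add_neg x, psi_add, psi_neg, psi_zsmul, psi_sec, ← sub_eq_add_neg]

open Classical in
/-- The case of the full torsion: `B` is multiplied by `m²`. -/
theorem BC_torsion {m : ℕ} (hm : Odd m) {Ef : Finset W.toAffine.Point}
    (hEf : ∀ P, P ∈ Ef ↔ m • P = 0) (hodd : Odd Ef.card) {T : W.toAffine.Point}
    (hT : T ≠ 0) (h2T : (2 : ℕ) • T = 0) : BC T (Ef.erase 0) = (m : ℂ) ^ 2 * B0 T := by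
  obtain ⟨τ, s, hs, h⟩ := exists_unif W (W.coe_Δ' ▸ W.Δ'.ne_zero)
  have hm0 : ((m : ℂ))⁻¹ ≠ 0 := by
    have : (m : ℂ) ≠ 0 := by
      intro h0
      have : m = 0 := by exact_mod_cast h0
      rw [this] at hm; exact (by decide : ¬ Odd 0) hm
    exact inv_ne_zero this
  have hm0' : (m : ℂ) ≠ 0 := fun h0 => hm0 (by rw [h0, inv_zero])
  set C : AddSubgroup W.toAffine.Point := (zsmulAddGroupHom (α := W.toAffine.Point) (m : ℤ)).ker
    with hC
  have hmem : ∀ P, P ∈ C ↔ m • P = 0 := by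
    intro P
    rw [hC, AddMonoidHom.mem_ker, zsmulAddGroupHom_apply, natCast_zsmul]
  have hEf' : ∀ P, P ∈ Ef ↔ P ∈ C := fun P => by rw [hEf, hmem]
  have hL' : (scaleP (m : ℂ)⁻¹ hm0 (pairOf τ s hs)).lattice = preim h C := by
    ext x
    rw [mem_preim, hmem, ← psi_nsmul, psi_eq_zero_iff, mem_scaleP]
    constructor
    · rintro ⟨y, hy, rfl⟩
      rwa [mul_inv_cancel_left₀ hm0']
    · intro hx
      exact ⟨_, hx, by rw [inv_mul_cancel_left₀ hm0']⟩
  rw [← BC_eq h hEf' hL' hT h2T hodd, P_half_scale hm hm0 (isHalf_sec h hT h2T), ← B0_eq h hT]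
  ring

end Exist

end

end Fermat.Agent.WP
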