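import Fermat.Agent.WP.Torsion

set_option autoImplicit false

/-!
# Descent of the quotient `j`-invariants to algebraically closed subfields of `ℂ`, and to `ℚ`
-/

namespace Fermat.Agent.WP

open PeriodPair WeierstrassCurve WeierstrassCurve.Affine
  WeierstrassCurve.Affine.Point Fermat.Agent.ECP Fermat.Agent.JInv Fermat.Agent.X0Places
  UpperHalfPlane

noncomputable section

section Map

variable {K M : Type*} [Field K] [Field M] [Algebra ℚ K] [Algebra ℚ M] (f : K →ₐ[ℚ] M)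
  {W' : WeierstrassCurve ℚ}

lemma map_b₂' : (W'⁄M).b₂ = f (W'⁄K).b₂ := by
  show (W'.map (algebraMap ℚ M)).b₂ = f ((W'.map (algebraMap ℚ K)).b₂)
  rw [WeierstrassCurve.map_b₂, WeierstrassCurve.map_b₂, f.commutes]

lemma map_b₄' : (W'⁄M).b₄ = f (W'⁄K).b₄ := by
  show (W'.map (algebraMap ℚ M)).b₄ = f ((W'.map (algebraMap ℚ K)).b₄)
  rw [WeierstrassCurve.map_b₄, WeierstrassCurve.map_b₄, f.commutes]

variable [DecidableEq K] [DecidableEq M]

lemma xc_map (P : (W'⁄K).Point) : xc (Affine.Point.map (W' := W') f P) = f (xc P) := by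
  rcases P with _ | ⟨x, y, h⟩
  · exact (map_zero f).symm
  · rfl

variable (T : (W'⁄K).Point)

lemma Xr_map (c : (W'⁄K).Point) : Xr (Affine.Point.map (W' := W') f T)
    (Affine.Point.map (W' := W') f c) = f (Xr T c) := by
  rw [Xr, Xr, xc_map, xc_map, map_sub]

lemma B0_map : B0 (Affine.Point.map (W' := W') f T) = f (B0 T) := by
  rw [B0, B0, xc_map, map_b₂' f, map_add, map_mul, map_ofNat]

lemma be0_map : be0 (Affine.Point.map (W' := W') f T) = f (be0 T) := by
  rw [be0, be0, xc_map, map_b₂' f, map_b₄' f]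
  simp only [map_add, map_mul, map_div₀, map_pow, map_ofNat]

lemma BC_map (D : Finset (W'⁄K).Point) : BC (Affine.Point.map (W' := W') f T)
    (D.image (Affine.Point.map (W' := W') f)) = f (BC T D) := by
  rw [BC, BC, B0_map, Finset.sum_image (fun a _ b _ h => Affine.Point.map_injective f h), map_add,
    map_mul, map_ofNat, map_sum]
  congr 2
  refine Finset.sum_congr rfl fun c _ => ?_
  rw [Xr_map, be0_map, map_sub, map_div₀]

lemma beC_map (D : Finset (W'⁄K).Point) : beC (Affine.Point.map (W' := W') f T)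
    (D.image (Affine.Point.map (W' := W') f)) = f (beC T D) := by
  rw [beC, beC, be0_map, Finset.prod_image (fun a _ b _ h => Affine.Point.map_injective f h),
    Finset.card_image_of_injective _ (Affine.Point.map_injective f), map_div₀, map_pow, map_pow,
    map_prod]
  congr 2
  refine Finset.prod_congr rfl fun c _ => ?_
  rw [Xr_map]

lemma jC_map (D : Finset (W'⁄K).Point) : jC (Affine.Point.map (W' := W') f T)
    (D.image (Affine.Point.map (W' := W') f)) = f (jC T D) := by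
  rw [jC, jC, BC_map, beC_map]
  simp only [map_div₀, map_pow, map_sub, map_mul, map_ofNat]

omit [Field M] [Algebra ℚ M] [DecidableEq M] in
lemma erase_image {G H : Type*} [DecidableEq G] [DecidableEq H] [Zero G] [Zero H] {g : G → H}
    (hg : Function.Injective g) (h0 : g 0 = 0) (s : Finset G) :
    (s.image g).erase 0 = (s.erase 0).image g := by
  rw [Finset.image_erase hg, h0]

end Map

section Cx

variable (W' : WeierstrassCurve ℚ) [W'.IsElliptic]

open Classical in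
theorem jC_indepQ {C : AddSubgroup (W'⁄ℂ).Point} {Cf : Finset (W'⁄ℂ).Point}
    (hCf : ∀ P, P ∈ Cf ↔ P ∈ C) (hodd : Odd Cf.card) {T T' : (W'⁄ℂ).Point} (hT : T ≠ 0)
    (h2T : (2 : ℕ) • T = 0) (hT' : T' ≠ 0) (h2T' : (2 : ℕ) • T' = 0) :
    jC T (Cf.erase 0) = jC T' (Cf.erase 0) :=
  jC_indep (W := W'.map (algebraMap ℚ ℂ)) hCf hodd hT h2T hT' h2T'

open Classical in
theorem exists_tau_jCQ {p : ℕ} (hp : p.Prime) {C C' : AddSubgroup (W'⁄ℂ).Point}
    {Cf Cf' : Finset (W'⁄ℂ).Point} (hCf : ∀ P, P ∈ Cf ↔ P ∈ C) (hCf' : ∀ P, P ∈ Cf' ↔ P ∈ C')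
    (hodd : Odd Cf.card) (hodd' : Odd Cf'.card) {c : (W'⁄ℂ).Point} (hc : c ∉ C)
    (hpc : p • c ∈ C) (hC' : ∀ P, P ∈ C' ↔ ∃ k : ℤ, P - k • c ∈ C) {T : (W'⁄ℂ).Point}
    (hT : T ≠ 0) (h2T : (2 : ℕ) • T = 0) :
    ∃ τ : ℍ, jC T (Cf.erase 0) = jInv τ ∧ jC T (Cf'.erase 0) = jInv (scaleH p hp.pos τ) :=
  exists_tau_jC (W := W'.map (algebraMap ℚ ℂ)) hp hCf hCf' hodd hodd' hc hpc hC' hT h2T

open Classical in
theorem BC_torsionQ {m : ℕ} (hm : Odd m) {Ef : Finset (W'⁄ℂ).Point}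
    (hEf : ∀ P, P ∈ Ef ↔ m • P = 0) (hodd : Odd Ef.card) {T : (W'⁄ℂ).Point}
    (hT : T ≠ 0) (h2T : (2 : ℕ) • T = 0) : BC T (Ef.erase 0) = (m : ℂ) ^ 2 * B0 T :=
  BC_torsion (W := W'.map (algebraMap ℚ ℂ)) hm hEf hodd hT h2T

end Cx

section Alg

variable {K : Type*} [Field K] [Algebra ℚ K] (f : K →ₐ[ℚ] ℂ)
  {W' : WeierstrassCurve ℚ} [W'.IsElliptic] [DecidableEq K]

include f

open Classical in
theorem jC_indep' {C : AddSubgroup (W'⁄K).Point} {Cf : Finset (W'⁄K).Point}
    (hCf : ∀ P, P ∈ Cf ↔ P ∈ C) (hodd : Odd Cf.card) {T T' : (W'⁄K).Point} (hT : T ≠ 0)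
    (h2T : (2 : ℕ) • T = 0) (hT' : T' ≠ 0) (h2T' : (2 : ℕ) • T' = 0) :
    jC T (Cf.erase 0) = jC T' (Cf.erase 0) := by
  have hinj := Affine.Point.map_injective (W' := W') f
  refine RingHom.injective (f : K →+* ℂ) ?_
  simp only [RingHom.coe_coe]
  rw [← jC_map f T, ← jC_map f T', ← erase_image hinj rfl]
  have hmem : ∀ P, P ∈ Cf.image (Affine.Point.map (W' := W') f) ↔
      P ∈ C.map (Affine.Point.map (W' := W') f) := by
    intro P
    simp [hCf]
  exact jC_indepQ W' hmem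
    (by rw [Finset.card_image_of_injective _ hinj]; exact hodd)
    (fun h => hT (hinj h)) (by
      show (2 : ℕ) • (Affine.Point.map (W' := W') f T) = 0
      rw [← map_nsmul, h2T]; rfl) (fun h => hT' (hinj h)) (by
      show (2 : ℕ) • (Affine.Point.map (W' := W') f T') = 0
      rw [← map_nsmul, h2T']; rfl)

open Classical in
theorem exists_tau_jC' {p : ℕ} (hp : p.Prime) {C C' : AddSubgroup (W'⁄K).Point}
    {Cf Cf' : Finset (W'⁄K).Point} (hCf : ∀ P, P ∈ Cf ↔ P ∈ C) (hCf' : ∀ P, P ∈ Cf' ↔ P ∈ C')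
    (hodd : Odd Cf.card) (hodd' : Odd Cf'.card) {c : (W'⁄K).Point} (hc : c ∉ C)
    (hpc : p • c ∈ C) (hC' : ∀ P, P ∈ C' ↔ ∃ k : ℤ, P - k • c ∈ C) {T : (W'⁄K).Point}
    (hT : T ≠ 0) (h2T : (2 : ℕ) • T = 0) :
    ∃ τ : ℍ, f (jC T (Cf.erase 0)) = jInv τ ∧
      f (jC T (Cf'.erase 0)) = jInv (scaleH p hp.pos τ) := by
  have hinj := Affine.Point.map_injective (W' := W') f
  rw [← jC_map f T, ← jC_map f T, ← erase_image hinj rfl, ← erase_image hinj rfl]
  have hmem : ∀ P, P ∈ Cf.image (Affine.Point.map (W' := W') f) ↔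
      P ∈ C.map (Affine.Point.map (W' := W') f) := by
    intro P
    simp [hCf]
  have hmem' : ∀ P, P ∈ Cf'.image (Affine.Point.map (W' := W') f) ↔
      P ∈ C'.map (Affine.Point.map (W' := W') f) := by
    intro P
    simp [hCf']
  refine exists_tau_jCQ W' hp hmem hmem'
    (by rw [Finset.card_image_of_injective _ hinj]; exact hodd)
    (by rw [Finset.card_image_of_injective _ hinj]; exact hodd')
    (c := Affine.Point.map (W' := W') f c) ?_ ?_ ?_ (fun h => hT (hinj h)) (by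
      show (2 : ℕ) • (Affine.Point.map (W' := W') f T) = 0
      rw [← map_nsmul, h2T]; rfl)
  · rintro ⟨c', hc', hcc'⟩
    exact hc (hinj hcc' ▸ hc')
  · refine ⟨p • c, hpc, ?_⟩
    exact map_nsmul _ _ _
  · intro P
    constructor
    · rintro ⟨Q, hQ, rfl⟩
      obtain ⟨k, hk⟩ := (hC' Q).mp hQ
      refine ⟨k, Q - k • c, hk, ?_⟩
      show Affine.Point.map (W' := W') f (Q - k • c) =
        Affine.Point.map (W' := W') f Q - k • Affine.Point.map (W' := W') f c
      rw [map_sub, map_zsmul]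
    · rintro ⟨k, Q, hQ, hQk⟩
      have hQk' : Affine.Point.map (W' := W') f Q = P - k • Affine.Point.map (W' := W') f c := hQk
      refine ⟨Q + k • c, (hC' _).mpr ⟨k, by rw [add_sub_cancel_right]; exact hQ⟩, ?_⟩
      show Affine.Point.map (W' := W') f (Q + k • c) = P
      rw [map_add, map_zsmul, hQk']
      abel

open Classical in
theorem BC_torsion' {m : ℕ} (hm : Odd m) {Ef : Finset (W'⁄K).Point}
    (hEf : ∀ P, P ∈ Ef ↔ m • P = 0) (hodd : Odd Ef.card)
    [IsAlgClosed K] [CharZero K] {T : (W'⁄K).Point}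
    (hT : T ≠ 0) (h2T : (2 : ℕ) • T = 0) : BC T (Ef.erase 0) = (m : K) ^ 2 * B0 T := by
  have hinj := Affine.Point.map_injective (W' := W') f
  refine RingHom.injective (f : K →+* ℂ) ?_
  simp only [RingHom.coe_coe]
  rw [← BC_map f T, ← erase_image hinj rfl, map_mul, map_pow, map_natCast, ← B0_map f T]
  refine BC_torsionQ W' hm ?_
    (by rw [Finset.card_image_of_injective _ hinj]; exact hodd) (fun h => hT (hinj h)) (by
      show (2 : ℕ) • (Affine.Point.map (W' := W') f T) = 0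
      rw [← map_nsmul, h2T]; rfl)
  intro P
  rw [Finset.mem_image]
  constructor
  · rintro ⟨Q, hQ, rfl⟩
    rw [hEf] at hQ
    show m • (Affine.Point.map (W' := W') f Q) = 0
    rw [← map_nsmul, hQ]; rfl
  · intro hP
    have hmpos : 0 < m := by
      rcases Nat.eq_zero_or_pos m with h | h
      · rw [h] at hm; exact absurd hm (by decide)
      · exact h
    obtain ⟨Q, hQ⟩ := torsion_mem_range (W' := W') f hmpos hP
    refine ⟨Q, (hEf Q).mpr ?_, hQ⟩
    apply hinj
    rw [map_nsmul, hQ]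
    exact hP

end Alg

section Rat

variable {K : Type*} [Field K] [Algebra ℚ K] [IsGalois ℚ K] (f : K →ₐ[ℚ] ℂ)
  {W' : WeierstrassCurve ℚ} [W'.IsElliptic] [DecidableEq K]

include f

/-- The `j`-invariant of the quotient by a Galois stable subgroup is rational. -/
theorem jC_rational {C : AddSubgroup (W'⁄K).Point} {Cf : Finset (W'⁄K).Point}
    (hCf : ∀ P, P ∈ Cf ↔ P ∈ C) (hodd : Odd Cf.card) {T : (W'⁄K).Point} (hT : T ≠ 0)
    (h2T : (2 : ℕ) • T = 0)
    (hstab : ∀ σ : K ≃ₐ[ℚ] K, ∀ P ∈ C, σ • P ∈ C) :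
    ∃ q : ℚ, algebraMap ℚ K q = jC T (Cf.erase 0) := by
  have hmem : jC T (Cf.erase 0) ∈ (⊥ : IntermediateField ℚ K) := by
    rw [InfiniteGalois.mem_bot_iff_fixed]
    intro σ
    have hinj := Affine.Point.map_injective (W' := W') (σ : K →ₐ[ℚ] K)
    have h1 := jC_map (W' := W') (σ : K →ₐ[ℚ] K) T (Cf.erase 0)
    have h2 : (Cf.erase 0).image (Affine.Point.map (W' := W') (σ : K →ₐ[ℚ] K)) = Cf.erase 0 := by
      rw [← erase_image hinj rfl]
      congr 1
      apply Finset.eq_of_subset_of_card_le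
      · intro P hP
        obtain ⟨Q, hQ, rfl⟩ := Finset.mem_image.mp hP
        rw [hCf] at hQ ⊢
        exact hstab σ Q hQ
      · rw [Finset.card_image_of_injective _ hinj]
    rw [h2] at h1
    have h3 := jC_indep' f hCf hodd (T := T)
      (T' := Affine.Point.map (W' := W') (σ : K →ₐ[ℚ] K) T) hT h2T
      (fun h => hT (hinj h)) (by rw [← map_nsmul, h2T]; rfl)
    rw [← h3] at h1
    exact h1.symm
  obtain ⟨q, hq⟩ := IntermediateField.mem_bot.mp hmem
  exact ⟨q, hq⟩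

end Rat

end

end Fermat.Agent.WP
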