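import Fermat.Agent.WP.Basic

set_option autoImplicit false

/-!
# Addition formulas for `℘`: sum and difference of `℘(z+w)` and `℘(z-w)`
-/

namespace Fermat.Agent.WP

open PeriodPair Filter Topology

variable {L : PeriodPair}

lemma eventually_not_mem : ∀ᶠ w in 𝓝[≠] (0 : ℂ), w ∉ L.lattice := by
  filter_upwards [self_mem_nhdsWithin, mem_nhdsWithin_of_mem_nhds
    (L.compl_lattice_sdiff_singleton_mem_nhds 0)] with w hw hw'
  simp_all

lemma P_eq (z : ℂ) : ℘[L] z = ℘[L - (0 : ℂ)] z + 1 / z ^ 2 := by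
  have := L.weierstrassPExcept_add 0 z
  simp only [ZeroMemClass.coe_zero, sub_zero] at this
  rw [← this]; simp

lemma P'_eq (z : ℂ) : ℘'[L] z = ℘'[L - (0 : ℂ)] z - 2 / z ^ 3 := by
  have := L.derivWeierstrassPExcept_sub 0 z
  simp only [ZeroMemClass.coe_zero, sub_zero] at this
  exact this.symm

lemma analyticAt_P0 : AnalyticAt ℂ ℘[L - (0 : ℂ)] 0 := L.analyticAt_weierstrassPExcept 0

lemma P_sub_mem {z l : ℂ} (hl : l ∈ L.lattice) : ℘[L] (z - l) = ℘[L] z :=
  L.weierstrassP_sub_coe z ⟨l, hl⟩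

lemma P_add_mem {z l : ℂ} (hl : l ∈ L.lattice) : ℘[L] (z + l) = ℘[L] z :=
  L.weierstrassP_add_coe z ⟨l, hl⟩

lemma P'_add_mem {z l : ℂ} (hl : l ∈ L.lattice) : ℘'[L] (z + l) = ℘'[L] z :=
  L.derivWeierstrassP_add_coe z ⟨l, hl⟩

lemma meromorphicAt_P (z : ℂ) : MeromorphicAt ℘[L] z := L.meromorphic_weierstrassP z

lemma meromorphicAt_P' (z : ℂ) : MeromorphicAt ℘'[L] z := L.meromorphic_derivWeierstrassP z

lemma meromorphicAt_P_add (w z : ℂ) : MeromorphicAt (fun z => ℘[L] (z + w)) z :=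
  MeromorphicAt.comp_analyticAt (g := fun z => z + w) (meromorphicAt_P (z + w)) (by fun_prop)

lemma meromorphicAt_P_sub (w z : ℂ) : MeromorphicAt (fun z => ℘[L] (z - w)) z :=
  MeromorphicAt.comp_analyticAt (g := fun z => z - w) (meromorphicAt_P (z - w)) (by fun_prop)

lemma neg_two_eq : (-2 : WithTop ℤ) = ((-2 : ℤ) : WithTop ℤ) := rfl

lemma one_le_of_pos {a : WithTop ℤ} (h : 0 < a) : 1 ≤ a := by
  induction a using WithTop.recTopCoe with
  | top => exact le_top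
  | coe n =>
    have : (0 : ℤ) < n := by exact_mod_cast h
    exact_mod_cast (by omega : (1 : ℤ) ≤ n)

/-- order of `℘(z) - ℘(w)` at a point congruent to `± w`. -/
lemma order_P_sub_ge {w x : ℂ} (hx : x ∉ L.lattice) (h : ℘[L] x = ℘[L] w) :
    1 ≤ meromorphicOrderAt (fun z => ℘[L] z - ℘[L] w) x := by
  have h1 : AnalyticAt ℂ (fun z => ℘[L] z - ℘[L] w) x := (analyticAt_P hx).sub analyticAt_const
  have h2 : 0 < meromorphicOrderAt (fun z => ℘[L] z - ℘[L] w) x := by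
    rw [← tendsto_zero_iff_meromorphicOrderAt_pos h1.meromorphicAt]
    have := h1.continuousAt.tendsto
    simp only [h, sub_self] at this
    exact this.mono_left nhdsWithin_le_nhds
  exact one_le_of_pos h2

lemma order_P_add_ge (w x : ℂ) : -2 ≤ meromorphicOrderAt (fun z => ℘[L] (z + w)) x := by
  have e : meromorphicOrderAt (fun z => ℘[L] (z + w)) x = meromorphicOrderAt ℘[L] (x + w) :=
    meromorphicOrderAt_fun_comp_add_const_eq_meromorphicOrderAt
  rw [e]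
  by_cases h : x + w ∈ L.lattice
  · rw [L.order_weierstrassP _ h]
  · have h0 : (-2 : WithTop ℤ) ≤ 0 := by
      rw [neg_two_eq]; exact_mod_cast (by norm_num : (-2 : ℤ) ≤ 0)
    exact le_trans h0 (analyticAt_P h).meromorphicOrderAt_nonneg

lemma order_P_sub_ge' (w x : ℂ) : -2 ≤ meromorphicOrderAt (fun z => ℘[L] (z - w)) x := by
  simpa [sub_eq_add_neg] using order_P_add_ge (L := L) (-w) x


section Taylor

lemma deriv_P'_eq {w : ℂ} (hw : w ∉ L.lattice) : deriv ℘'[L] w = 6 * ℘[L] w ^ 2 - L.g₂ / 2 :=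
  (hasDerivAt_P' hw).deriv

lemma iter0 (w : ℂ) : iteratedDeriv 0 ℘[L] w = ℘[L] w := by simp

lemma iter1 (w : ℂ) : iteratedDeriv 1 ℘[L] w = ℘'[L] w := by
  rw [iteratedDeriv_one, L.deriv_weierstrassP]

lemma iter2 {w : ℂ} (hw : w ∉ L.lattice) :
    iteratedDeriv 2 ℘[L] w = 6 * ℘[L] w ^ 2 - L.g₂ / 2 := by
  rw [iteratedDeriv_succ', L.deriv_weierstrassP, iteratedDeriv_one, deriv_P'_eq hw]

lemma iter3 {w : ℂ} (hw : w ∉ L.lattice) :
    iteratedDeriv 3 ℘[L] w = 12 * ℘[L] w * ℘'[L] w := by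
  rw [iteratedDeriv_succ', L.deriv_weierstrassP, iteratedDeriv_succ', iteratedDeriv_one]
  have h : deriv ℘'[L] =ᶠ[𝓝 w] fun u => 6 * ℘[L] u ^ 2 - L.g₂ / 2 := by
    filter_upwards [(isOpen_compl L).mem_nhds hw] with u hu
    exact deriv_P'_eq hu
  rw [h.deriv_eq]
  have h2 : HasDerivAt (fun u => 6 * ℘[L] u ^ 2 - L.g₂ / 2)
      (6 * ((2 : ℕ) * ℘[L] w ^ (2 - 1) * ℘'[L] w)) w :=
    (((hasDerivAt_P hw).pow 2).const_mul 6).sub_const _
  rw [h2.deriv]
  simp only [Nat.cast_ofNat, Nat.add_one_sub_one, pow_one]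
  ring

lemma iter_add (n : ℕ) (w : ℂ) :
    iteratedDeriv n (fun z => ℘[L] (z + w)) 0 = iteratedDeriv n ℘[L] w := by
  have := congrFun (iteratedDeriv_comp_add_const n ℘[L] w) 0
  simpa using this

lemma iter_sub (n : ℕ) (w : ℂ) :
    iteratedDeriv n (fun z => ℘[L] (z - w)) 0 = iteratedDeriv n ℘[L] (-w) := by
  have := iter_add (L := L) n (-w)
  simpa [sub_eq_add_neg] using this

end Taylor

section Local

/-- `℘(z) = 1/z² + z² u(z)` -/
lemma exists_P_eq : ∃ u : ℂ → ℂ, AnalyticAt ℂ u 0 ∧ ∀ z, ℘[L] z = 1 / z ^ 2 + z ^ 2 * u z := by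
  obtain ⟨u, hu, h⟩ := (analyticAt_P0 (L := L)).exists_eq_sum_add_pow_mul 2
  refine ⟨u, hu, fun z => ?_⟩
  have h1 : iteratedDeriv 1 ℘[L - (0 : ℂ)] 0 = 0 := by
    rw [L.iteratedDeriv_weierstrassPExcept_self]
    simp [L.sumInvPow_zero, L.G_eq_zero_of_odd 3 (by decide)]
  rw [P_eq, h z]
  simp only [Finset.sum_range_succ, Finset.sum_range_zero, h1, iteratedDeriv_zero,
    L.weierstrassPExcept_zero, smul_eq_mul]
  ring

/-- `℘'(z) = -2/z³ + z v(z)` -/
lemma exists_P'_eq : ∃ v : ℂ → ℂ, AnalyticAt ℂ v 0 ∧ ∀ z, ℘'[L] z = -2 / z ^ 3 + z * v z := by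
  obtain ⟨v, hv, h⟩ := (L.analyticAt_derivWeierstrassPExcept 0).exists_eq_sum_add_pow_mul 1
  refine ⟨v, hv, fun z => ?_⟩
  rw [P'_eq, h z]
  simp only [Finset.sum_range_succ, Finset.sum_range_zero, iteratedDeriv_zero,
    L.derivWeierstrassPExcept_zero_zero, smul_eq_mul]
  ring

lemma analyticAt_P_add {w : ℂ} (hw : w ∉ L.lattice) : AnalyticAt ℂ (fun z => ℘[L] (z + w)) 0 := by
  have h : AnalyticAt ℂ ℘[L] (0 + w) := by rw [zero_add]; exact analyticAt_P hw
  exact h.comp_of_eq (g := ℘[L]) (f := fun z => z + w) (by fun_prop) rfl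

/-- `℘(z + w) + ℘(z - w) = 2 ℘(w) + (6 ℘(w)² - g₂/2) z² + z⁴ c(z)` -/
lemma exists_add_eq {w : ℂ} (hw : w ∉ L.lattice) : ∃ c : ℂ → ℂ, AnalyticAt ℂ c 0 ∧ ∀ z,
    ℘[L] (z + w) + ℘[L] (z - w) =
      2 * ℘[L] w + (6 * ℘[L] w ^ 2 - L.g₂ / 2) * z ^ 2 + z ^ 4 * c z := by
  have hw' : -w ∉ L.lattice := fun h => hw (by simpa using neg_mem h)
  obtain ⟨c₁, hc₁, h₁⟩ := (analyticAt_P_add hw).exists_eq_sum_add_pow_mul 4
  obtain ⟨c₂, hc₂, h₂⟩ := (analyticAt_P_add hw').exists_eq_sum_add_pow_mul 4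
  refine ⟨fun z => c₁ z + c₂ z, hc₁.add hc₂, fun z => ?_⟩
  rw [sub_eq_add_neg z w, h₁ z, h₂ z]
  simp only [Finset.sum_range_succ, Finset.sum_range_zero, iter_add, iter0, iter1, iter2 hw,
    iter2 hw', iter3 hw, iter3 hw', smul_eq_mul, L.weierstrassP_neg, L.derivWeierstrassP_neg,
    Nat.factorial]
  push_cast
  ring

/-- `℘(z - w) - ℘(z + w) = -2 ℘'(w) z - 4 ℘(w) ℘'(w) z³ + z⁴ c(z)` -/
lemma exists_sub_eq {w : ℂ} (hw : w ∉ L.lattice) : ∃ c : ℂ → ℂ, AnalyticAt ℂ c 0 ∧ ∀ z,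
    ℘[L] (z - w) - ℘[L] (z + w) =
      -2 * ℘'[L] w * z - 4 * ℘[L] w * ℘'[L] w * z ^ 3 + z ^ 4 * c z := by
  have hw' : -w ∉ L.lattice := fun h => hw (by simpa using neg_mem h)
  obtain ⟨c₁, hc₁, h₁⟩ := (analyticAt_P_add hw).exists_eq_sum_add_pow_mul 4
  obtain ⟨c₂, hc₂, h₂⟩ := (analyticAt_P_add hw').exists_eq_sum_add_pow_mul 4
  refine ⟨fun z => c₂ z - c₁ z, hc₂.sub hc₁, fun z => ?_⟩
  rw [sub_eq_add_neg z w, h₁ z, h₂ z]
  simp only [Finset.sum_range_succ, Finset.sum_range_zero, iter_add, iter0, iter1, iter2 hw,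
    iter2 hw', iter3 hw, iter3 hw', smul_eq_mul, L.weierstrassP_neg, L.derivWeierstrassP_neg,
    Nat.factorial]
  push_cast
  ring

end Local

section Main

/-- an elliptic function which is locally analytic at `0`, and has poles (of order `≥ -2` of the
shifted type) cancelled by the factor, is constant. -/
lemma order_nonneg_of_eventuallyEq {f g : ℂ → ℂ} {x : ℂ} (hg : AnalyticAt ℂ g x)
    (h : f =ᶠ[𝓝[≠] x] g) : 0 ≤ meromorphicOrderAt f x := by
  rw [meromorphicOrderAt_congr h]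
  exact hg.meromorphicOrderAt_nonneg

lemma order_sub_nonneg {f g : ℂ → ℂ} {x : ℂ} (hf : MeromorphicAt f x) (hg : MeromorphicAt g x)
    (h1 : 0 ≤ meromorphicOrderAt f x) (h2 : 0 ≤ meromorphicOrderAt g x) :
    0 ≤ meromorphicOrderAt (fun z => f z - g z) x := by
  have := meromorphicOrderAt_add hf hg.neg
  rw [← meromorphicOrderAt_neg (f := g)] at this
  have h3 : (f + -g) = fun z => f z - g z := by ext z; simp [sub_eq_add_neg]
  rw [h3] at this
  exact le_trans (le_min h1 h2) this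

lemma order_sq_mul_nonneg {f g : ℂ → ℂ} {x : ℂ} (hf : MeromorphicAt f x) (hg : MeromorphicAt g x)
    (h1 : 1 ≤ meromorphicOrderAt f x) (h2 : -2 ≤ meromorphicOrderAt g x) :
    0 ≤ meromorphicOrderAt (fun z => f z ^ 2 * g z) x := by
  have e : (fun z => f z ^ 2 * g z) = (f * f) * g := by ext z; simp [pow_two]
  rw [e, meromorphicOrderAt_mul (hf.mul hf) hg, meromorphicOrderAt_mul hf hf]
  have h3 : (1 : WithTop ℤ) + 1 + -2 ≤ meromorphicOrderAt f x + meromorphicOrderAt f x +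
    meromorphicOrderAt g x := add_le_add (add_le_add h1 h1) h2
  have h4 : (1 : WithTop ℤ) + 1 + -2 = 0 := by
    rfl
  rwa [h4] at h3

lemma not_mem_of_eq {x w : ℂ} (hw : w ∉ L.lattice) (h : x - w ∈ L.lattice ∨ x + w ∈ L.lattice) :
    x ∉ L.lattice := by
  intro hx
  rcases h with h | h
  · exact hw (by simpa using sub_mem hx h)
  · exact hw (by simpa using sub_mem h hx)

lemma P_eq_of_mem {x w : ℂ} (h : x - w ∈ L.lattice ∨ x + w ∈ L.lattice) : ℘[L] x = ℘[L] w := by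
  rcases h with h | h
  · have := P_add_mem (L := L) (z := w) h
    simpa using this
  · have := P_add_mem (L := L) (z := -w) h
    simpa [L.weierstrassP_neg] using this

/-- order of a periodic function at a lattice point -/
lemma order_of_mem {f : ℂ → ℂ} (hper : ∀ z, ∀ l ∈ L.lattice, f (z + l) = f z) {l : ℂ}
    (hl : l ∈ L.lattice) : meromorphicOrderAt f l = meromorphicOrderAt f 0 := by
  have h : meromorphicOrderAt (fun z => f (z + l)) 0 = meromorphicOrderAt f (0 + l) :=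
    meromorphicOrderAt_fun_comp_add_const_eq_meromorphicOrderAt
  rw [zero_add] at h
  rw [← h]
  congr 1
  ext z
  exact hper z l hl

/-- the difference function of the addition formula A1 -/
noncomputable def D1 (L : PeriodPair) (w z : ℂ) : ℂ :=
  (℘[L] z - ℘[L] w) ^ 2 * (℘[L] (z + w) + ℘[L] (z - w)) -
    (2 * ℘[L] z * ℘[L] w * (℘[L] z + ℘[L] w) - L.g₂ / 2 * (℘[L] z + ℘[L] w) - L.g₃)

/-- the difference function of the addition formula A3 -/
noncomputable def D3 (L : PeriodPair) (w z : ℂ) : ℂ :=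
  (℘[L] z - ℘[L] w) ^ 2 * (℘[L] (z - w) - ℘[L] (z + w)) - ℘'[L] z * ℘'[L] w

lemma D1_per (w z l : ℂ) (hl : l ∈ L.lattice) : D1 L w (z + l) = D1 L w z := by
  have h1 : z + l + w = (z + w) + l := by ring
  have h2 : z + l - w = (z - w) + l := by ring
  simp only [D1, h1, h2, P_add_mem hl]

lemma D3_per (w z l : ℂ) (hl : l ∈ L.lattice) : D3 L w (z + l) = D3 L w z := by
  have h1 : z + l + w = (z + w) + l := by ring
  have h2 : z + l - w = (z - w) + l := by ring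
  simp only [D3, h1, h2, P_add_mem hl, P'_add_mem hl]

lemma meromorphicAt_D1 (w z : ℂ) : MeromorphicAt (D1 L w) z := by
  unfold D1
  have h1 := meromorphicAt_P (L := L) z
  have h2 := meromorphicAt_P_add (L := L) w z
  have h3 := meromorphicAt_P_sub (L := L) w z
  fun_prop

lemma meromorphicAt_D3 (w z : ℂ) : MeromorphicAt (D3 L w) z := by
  unfold D3
  have h1 := meromorphicAt_P (L := L) z
  have h1' := meromorphicAt_P' (L := L) z
  have h2 := meromorphicAt_P_add (L := L) w z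
  have h3 := meromorphicAt_P_sub (L := L) w z
  fun_prop

lemma order_add_ge {f g : ℂ → ℂ} {x : ℂ} (hf : MeromorphicAt f x) (hg : MeromorphicAt g x)
    (h1 : -2 ≤ meromorphicOrderAt f x) (h2 : -2 ≤ meromorphicOrderAt g x) :
    -2 ≤ meromorphicOrderAt (fun z => f z + g z) x :=
  le_trans (le_min h1 h2) (meromorphicOrderAt_add hf hg)

lemma order_sub_ge {f g : ℂ → ℂ} {x : ℂ} (hf : MeromorphicAt f x) (hg : MeromorphicAt g x)
    (h1 : -2 ≤ meromorphicOrderAt f x) (h2 : -2 ≤ meromorphicOrderAt g x) :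
    -2 ≤ meromorphicOrderAt (fun z => f z - g z) x := by
  have := meromorphicOrderAt_add hf hg.neg
  rw [← meromorphicOrderAt_neg (f := g)] at this
  have h3 : (f + -g) = fun z => f z - g z := by ext z; simp [sub_eq_add_neg]
  rw [h3] at this
  exact le_trans (le_min h1 h2) this

lemma order_D1_zero {w : ℂ} (hw : w ∉ L.lattice) : 0 ≤ meromorphicOrderAt (D1 L w) 0 := by
  obtain ⟨u, hu, hu'⟩ := exists_P_eq (L := L)
  obtain ⟨c, hc, hc'⟩ := exists_add_eq hw
  set P := ℘[L] w with hP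
  have key : D1 L w =ᶠ[𝓝[≠] 0] fun z =>
      (P ^ 2 + 2 * u z - 2 * P * z ^ 2 * u z + z ^ 4 * u z ^ 2) *
        (2 * P + (6 * P ^ 2 - L.g₂ / 2) * z ^ 2 + z ^ 4 * c z) -
      2 * P * ((6 * P ^ 2 - L.g₂ / 2) + z ^ 2 * c z) + c z -
      (2 * P * (2 * u z + z ^ 4 * u z ^ 2) + 2 * P ^ 2 * z ^ 2 * u z -
        L.g₂ / 2 * (z ^ 2 * u z) - L.g₂ / 2 * P - L.g₃) := by
    filter_upwards [self_mem_nhdsWithin] with z hz
    have hz0 : z ≠ 0 := hz
    unfold D1
    rw [hc' z, hu' z, ← hP]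
    field_simp
    ring
  refine order_nonneg_of_eventuallyEq ?_ key
  fun_prop

lemma order_D3_zero {w : ℂ} (hw : w ∉ L.lattice) : 0 ≤ meromorphicOrderAt (D3 L w) 0 := by
  obtain ⟨u, hu, hu'⟩ := exists_P_eq (L := L)
  obtain ⟨v, hv, hv'⟩ := exists_P'_eq (L := L)
  obtain ⟨c, hc, hc'⟩ := exists_sub_eq hw
  set P := ℘[L] w with hP
  set P1 := ℘'[L] w with hP1
  have key : D3 L w =ᶠ[𝓝[≠] 0] fun z =>
      (P ^ 2 + 2 * u z - 2 * P * z ^ 2 * u z + z ^ 4 * u z ^ 2) *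
        (-2 * P1 * z - 4 * P * P1 * z ^ 3 + z ^ 4 * c z) -
      2 * P * (- 4 * P * P1 * z + z ^ 2 * c z) + c z - z * v z * P1 := by
    filter_upwards [self_mem_nhdsWithin] with z hz
    have hz0 : z ≠ 0 := hz
    unfold D3
    rw [hc' z, hu' z, hv' z, ← hP, ← hP1]
    field_simp
    ring
  refine order_nonneg_of_eventuallyEq ?_ key
  fun_prop

lemma order_D1 {w : ℂ} (hw : w ∉ L.lattice) (x : ℂ) : 0 ≤ meromorphicOrderAt (D1 L w) x := by
  by_cases hx : x ∈ L.lattice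
  · rw [order_of_mem (fun z l hl => D1_per w z l hl) hx]
    exact order_D1_zero hw
  have hm1 := meromorphicAt_P (L := L) x
  have hm2 := meromorphicAt_P_add (L := L) w x
  have hm3 := meromorphicAt_P_sub (L := L) w x
  have ha : AnalyticAt ℂ (fun z => 2 * ℘[L] z * ℘[L] w * (℘[L] z + ℘[L] w) -
      L.g₂ / 2 * (℘[L] z + ℘[L] w) - L.g₃) x := by
    have := analyticAt_P hx
    fun_prop
  by_cases h : x - w ∈ L.lattice ∨ x + w ∈ L.lattice
  · have h1 := order_sq_mul_nonneg (f := fun z => ℘[L] z - ℘[L] w)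
      (g := fun z => ℘[L] (z + w) + ℘[L] (z - w)) (x := x) (by fun_prop) (by fun_prop)
      (order_P_sub_ge hx (P_eq_of_mem h))
      (order_add_ge hm2 hm3 (order_P_add_ge w x) (order_P_sub_ge' w x))
    exact order_sub_nonneg (by fun_prop) ha.meromorphicAt h1 ha.meromorphicOrderAt_nonneg
  · push Not at h
    have h1 : AnalyticAt ℂ (fun z => ℘[L] (z + w)) x :=
      (analyticAt_P h.2).comp_of_eq (g := ℘[L]) (f := fun z => z + w) (by fun_prop) rfl
    have h2 : AnalyticAt ℂ (fun z => ℘[L] (z - w)) x :=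
      (analyticAt_P h.1).comp_of_eq (g := ℘[L]) (f := fun z => z - w) (by fun_prop) rfl
    have h3 := analyticAt_P hx
    have : AnalyticAt ℂ (D1 L w) x := by
      unfold D1
      fun_prop
    exact this.meromorphicOrderAt_nonneg

lemma order_D3 {w : ℂ} (hw : w ∉ L.lattice) (x : ℂ) : 0 ≤ meromorphicOrderAt (D3 L w) x := by
  by_cases hx : x ∈ L.lattice
  · rw [order_of_mem (fun z l hl => D3_per w z l hl) hx]
    exact order_D3_zero hw
  have hm1 := meromorphicAt_P (L := L) x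
  have hm2 := meromorphicAt_P_add (L := L) w x
  have hm3 := meromorphicAt_P_sub (L := L) w x
  have ha : AnalyticAt ℂ (fun z => ℘'[L] z * ℘'[L] w) x := by
    have := analyticAt_P' hx
    fun_prop
  by_cases h : x - w ∈ L.lattice ∨ x + w ∈ L.lattice
  · have h1 := order_sq_mul_nonneg (f := fun z => ℘[L] z - ℘[L] w)
      (g := fun z => ℘[L] (z - w) - ℘[L] (z + w)) (x := x) (by fun_prop) (by fun_prop)
      (order_P_sub_ge hx (P_eq_of_mem h))
      (order_sub_ge hm3 hm2 (order_P_sub_ge' w x) (order_P_add_ge w x))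
    exact order_sub_nonneg (by fun_prop) ha.meromorphicAt h1 ha.meromorphicOrderAt_nonneg
  · push Not at h
    have h1 : AnalyticAt ℂ (fun z => ℘[L] (z + w)) x :=
      (analyticAt_P h.2).comp_of_eq (g := ℘[L]) (f := fun z => z + w) (by fun_prop) rfl
    have h2 : AnalyticAt ℂ (fun z => ℘[L] (z - w)) x :=
      (analyticAt_P h.1).comp_of_eq (g := ℘[L]) (f := fun z => z - w) (by fun_prop) rfl
    have h3 := analyticAt_P hx
    have h4 := analyticAt_P' hx
    have : AnalyticAt ℂ (D3 L w) x := by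
      unfold D3
      fun_prop
    exact this.meromorphicOrderAt_nonneg

lemma analyticAt_D1 {w x : ℂ} (hx : x ∉ L.lattice) (h1 : x - w ∉ L.lattice)
    (h2 : x + w ∉ L.lattice) : AnalyticAt ℂ (D1 L w) x := by
  have e1 : AnalyticAt ℂ (fun z => ℘[L] (z + w)) x :=
    (analyticAt_P h2).comp_of_eq (g := ℘[L]) (f := fun z => z + w) (by fun_prop) rfl
  have e2 : AnalyticAt ℂ (fun z => ℘[L] (z - w)) x :=
    (analyticAt_P h1).comp_of_eq (g := ℘[L]) (f := fun z => z - w) (by fun_prop) rfl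
  have h3 := analyticAt_P hx
  unfold D1
  fun_prop

lemma analyticAt_D3 {w x : ℂ} (hx : x ∉ L.lattice) (h1 : x - w ∉ L.lattice)
    (h2 : x + w ∉ L.lattice) : AnalyticAt ℂ (D3 L w) x := by
  have e1 : AnalyticAt ℂ (fun z => ℘[L] (z + w)) x :=
    (analyticAt_P h2).comp_of_eq (g := ℘[L]) (f := fun z => z + w) (by fun_prop) rfl
  have e2 : AnalyticAt ℂ (fun z => ℘[L] (z - w)) x :=
    (analyticAt_P h1).comp_of_eq (g := ℘[L]) (f := fun z => z - w) (by fun_prop) rfl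
  have h3 := analyticAt_P hx
  have h4 := analyticAt_P' hx
  unfold D3
  fun_prop

end Main

end Fermat.Agent.WP
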