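import Fermat.Agent.WP.AddX

set_option autoImplicit false

/-!
# Addition formulas for `℘`: A1 and A3
-/

namespace Fermat.Agent.WP

open PeriodPair Filter Topology

variable {L : PeriodPair}

lemma eventually_nhdsNE_not_mem (x : ℂ) : ∀ᶠ w in 𝓝[≠] x, w ∉ L.lattice := by
  filter_upwards [self_mem_nhdsWithin, mem_nhdsWithin_of_mem_nhds
    (L.compl_lattice_sdiff_singleton_mem_nhds x)] with w hw hw'
  simp_all

lemma tendsto_add_nhdsNE (x w : ℂ) : Tendsto (fun z => z + w) (𝓝[≠] x) (𝓝[≠] (x + w)) := by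
  refine tendsto_nhdsWithin_of_tendsto_nhds_of_eventually_within _ ?_ ?_
  · exact ((continuous_add_const w).tendsto x).mono_left nhdsWithin_le_nhds
  · filter_upwards [self_mem_nhdsWithin] with u hu
    simpa using hu

lemma eventually_generic (w x : ℂ) : ∀ᶠ z in 𝓝[≠] x,
    z ∉ L.lattice ∧ z - w ∉ L.lattice ∧ z + w ∉ L.lattice := by
  have h1 := eventually_nhdsNE_not_mem (L := L) x
  have h2 := (tendsto_add_nhdsNE x w).eventually (eventually_nhdsNE_not_mem (L := L) (x + w))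
  have h3 := (tendsto_add_nhdsNE x (-w)).eventually (eventually_nhdsNE_not_mem (L := L) (x + -w))
  filter_upwards [h1, h2, h3] with z h1 h2 h3
  exact ⟨h1, by simpa [sub_eq_add_neg] using h3, h2⟩

lemma P'_eq_zero_of_two_mul_mem {w : ℂ} (h : 2 * w ∈ L.lattice) : ℘'[L] w = 0 := by
  have h1 := P'_add_mem (L := L) (z := -w) h
  rw [L.derivWeierstrassP_neg, show -w + 2 * w = w by ring] at h1
  linear_combination h1 / 2

lemma tendsto_sq_mul_P : Tendsto (fun z => z ^ 2 * ℘[L] z) (𝓝[≠] 0) (𝓝 1) := by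
  obtain ⟨u, hu, hu'⟩ := exists_P_eq (L := L)
  have h1 : ContinuousAt (fun z : ℂ => 1 + z ^ 4 * u z) 0 := by
    have := hu.continuousAt
    fun_prop
  have h2 : Tendsto (fun z : ℂ => 1 + z ^ 4 * u z) (𝓝[≠] 0) (𝓝 (1 + 0 ^ 4 * u 0)) :=
    h1.tendsto.mono_left nhdsWithin_le_nhds
  simp only [ne_eq, OfNat.ofNat_ne_zero, not_false_eq_true, zero_pow, zero_mul, add_zero] at h2
  refine h2.congr' ?_
  filter_upwards [self_mem_nhdsWithin] with z hz
  have hz0 : z ≠ 0 := hz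
  rw [hu' z]
  field_simp

lemma tendsto_sq_mul_P_sub {x w : ℂ} (h : x - w ∈ L.lattice) :
    Tendsto (fun z => (z - x) ^ 2 * ℘[L] (z - w)) (𝓝[≠] x) (𝓝 1) := by
  have h1 : Tendsto (fun z => z + -x) (𝓝[≠] x) (𝓝[≠] 0) := by
    have := tendsto_add_nhdsNE x (-x)
    rwa [add_neg_cancel] at this
  refine ((tendsto_sq_mul_P (L := L)).comp h1).congr fun z => ?_
  simp only [Function.comp_apply]
  have := P_add_mem (L := L) (z := z + -x) h
  rw [show z + -x + (x - w) = z - w by ring] at this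
  rw [this, sub_eq_add_neg]

theorem D1_eq_zero {w : ℂ} (hw : w ∉ L.lattice) {z : ℂ} (hz : z ∉ L.lattice)
    (h1 : z - w ∉ L.lattice) (h2 : z + w ∉ L.lattice) : D1 L w z = 0 := by
  obtain ⟨c, hc⟩ := liouville L (meromorphicAt_D1 w) (order_D1 hw) (fun z l hl => D1_per w z l hl)
  rw [hc z (analyticAt_D1 hz h1 h2).continuousAt]
  -- the limit as `z → w`
  have hlim1 : Tendsto (D1 L w) (𝓝[≠] w) (𝓝 c) := by
    refine tendsto_const_nhds.congr' ?_
    filter_upwards [eventually_generic (L := L) w w] with z hz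
    exact (hc z (analyticAt_D1 hz.1 hz.2.1 hz.2.2).continuousAt).symm
  have hs : Tendsto (fun z => (z - w)⁻¹ * (℘[L] z - ℘[L] w)) (𝓝[≠] w) (𝓝 (℘'[L] w)) := by
    have := (hasDerivAt_P hw).tendsto_slope
    refine this.congr fun z => ?_
    simp [slope, vsub_eq_sub]
  have hA : Tendsto (fun z => (z - w) ^ 2 * ℘[L] (z - w)) (𝓝[≠] w) (𝓝 1) :=
    tendsto_sq_mul_P_sub (by simp)
  obtain ⟨ε, hB, hε⟩ : ∃ ε : ℂ, Tendsto (fun z => (z - w) ^ 2 * ℘[L] (z + w)) (𝓝[≠] w) (𝓝 ε) ∧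
      ε * ℘'[L] w ^ 2 = 0 := by
    by_cases h2w : 2 * w ∈ L.lattice
    · refine ⟨1, ?_, ?_⟩
      · have := tendsto_sq_mul_P_sub (L := L) (x := w) (w := -w) (by
          rw [sub_neg_eq_add, ← two_mul]; exact h2w)
        simpa using this
      · rw [P'_eq_zero_of_two_mul_mem h2w]; ring
    · refine ⟨0, ?_, by ring⟩
      have h2w' : w + w ∉ L.lattice := by rwa [← two_mul]
      have hcont : ContinuousAt (fun z => (z - w) ^ 2 * ℘[L] (z + w)) w := by
        have h3 : ContinuousAt (fun z => ℘[L] (z + w)) w :=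
          ((analyticAt_P h2w').comp_of_eq (g := ℘[L]) (f := fun z => z + w)
            (by fun_prop) rfl).continuousAt
        fun_prop
      have := hcont.tendsto.mono_left (nhdsWithin_le_nhds (s := {w}ᶜ))
      simpa using this
  have hP : Tendsto ℘[L] (𝓝[≠] w) (𝓝 (℘[L] w)) :=
    (analyticAt_P hw).continuousAt.tendsto.mono_left nhdsWithin_le_nhds
  have hlim2 : Tendsto (D1 L w) (𝓝[≠] w) (𝓝 (℘'[L] w ^ 2 * (ε + 1) -
      (2 * ℘[L] w * ℘[L] w * (℘[L] w + ℘[L] w) - L.g₂ / 2 * (℘[L] w + ℘[L] w) - L.g₃))) := by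
    have h3 : Tendsto (fun z => ((z - w)⁻¹ * (℘[L] z - ℘[L] w)) ^ 2 *
        ((z - w) ^ 2 * ℘[L] (z + w) + (z - w) ^ 2 * ℘[L] (z - w)) -
        (2 * ℘[L] z * ℘[L] w * (℘[L] z + ℘[L] w) - L.g₂ / 2 * (℘[L] z + ℘[L] w) - L.g₃)) (𝓝[≠] w)
        (𝓝 (℘'[L] w ^ 2 * (ε + 1) -
      (2 * ℘[L] w * ℘[L] w * (℘[L] w + ℘[L] w) - L.g₂ / 2 * (℘[L] w + ℘[L] w) - L.g₃))) :=
      ((hs.pow 2).mul (hB.add hA)).sub (((((hP.const_mul 2).mul_const _).mul
        (hP.add_const _)).sub ((hP.add_const _).const_mul _)).sub_const _)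
    refine h3.congr' ?_
    filter_upwards [self_mem_nhdsWithin] with z hz
    have hz0 : z - w ≠ 0 := sub_ne_zero.mpr hz
    unfold D1
    field_simp
  rw [tendsto_nhds_unique hlim1 hlim2]
  have hode := L.derivWeierstrassP_sq w hw
  linear_combination hode + hε

theorem D3_eq_zero {w : ℂ} (hw : w ∉ L.lattice) {z : ℂ} (hz : z ∉ L.lattice)
    (h1 : z - w ∉ L.lattice) (h2 : z + w ∉ L.lattice) : D3 L w z = 0 := by
  obtain ⟨c, hc⟩ := liouville L (meromorphicAt_D3 w) (order_D3 hw) (fun z l hl => D3_per w z l hl)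
  have e1 := hc z (analyticAt_D3 hz h1 h2).continuousAt
  have e2 := hc (-z) (analyticAt_D3 (fun h => hz (by simpa using neg_mem h))
    (fun h => h2 (by simpa [add_comm] using neg_mem h))
    (fun h => h1 (by
      have := neg_mem h
      rwa [neg_add, neg_neg, ← sub_eq_add_neg] at this))).continuousAt
  have e3 : D3 L w (-z) = - D3 L w z := by
    unfold D3
    rw [L.weierstrassP_neg, L.derivWeierstrassP_neg, show -z - w = -(z + w) by ring,
      show -z + w = -(z - w) by ring, L.weierstrassP_neg, L.weierstrassP_neg]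
    ring
  linear_combination (e1 + e3 - e2) / 2

/-- Addition formula A1. -/
theorem P_add_add_P_sub {z w : ℂ} (hz : z ∉ L.lattice) (hw : w ∉ L.lattice)
    (h1 : z - w ∉ L.lattice) (h2 : z + w ∉ L.lattice) :
    (℘[L] z - ℘[L] w) ^ 2 * (℘[L] (z + w) + ℘[L] (z - w)) =
      2 * ℘[L] z * ℘[L] w * (℘[L] z + ℘[L] w) - L.g₂ / 2 * (℘[L] z + ℘[L] w) - L.g₃ :=
  sub_eq_zero.mp (D1_eq_zero hw hz h1 h2)

/-- Addition formula A3. -/
theorem P_sub_sub_P_add {z w : ℂ} (hz : z ∉ L.lattice) (hw : w ∉ L.lattice)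
    (h1 : z - w ∉ L.lattice) (h2 : z + w ∉ L.lattice) :
    (℘[L] z - ℘[L] w) ^ 2 * (℘[L] (z - w) - ℘[L] (z + w)) = ℘'[L] z * ℘'[L] w :=
  sub_eq_zero.mp (D3_eq_zero hw hz h1 h2)

end Fermat.Agent.WP
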