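import Mathlib

set_option autoImplicit false

/-!
# Liouville's theorem for elliptic functions, and `℘'' = 6 ℘² - g₂/2`
-/

namespace Fermat.Agent.WP

open PeriodPair Filter Topology

variable (L : PeriodPair)

/-- Liouville: an elliptic function without poles is constant. -/
theorem liouville {f : ℂ → ℂ} (hf : ∀ z, MeromorphicAt f z)
    (hord : ∀ z, 0 ≤ meromorphicOrderAt f z) (hper : ∀ z, ∀ l ∈ L.lattice, f (z + l) = f z) :
    ∃ c, ∀ z, ContinuousAt f z → f z = c := by
  have hfU : MeromorphicOn f Set.univ := fun z _ => hf z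
  set g := toMeromorphicNFOn f Set.univ with hg
  have hgf : ∀ z, g =ᶠ[𝓝[≠] z] f := fun z =>
    hfU.toMeromorphicNFOn_eq_self_on_nhdsNE (Set.mem_univ z)
  have hgan : ∀ z, AnalyticAt ℂ g z := by
    intro z
    have h1 : MeromorphicNFAt g z := meromorphicNFOn_toMeromorphicNFOn f Set.univ (Set.mem_univ z)
    rw [← h1.meromorphicOrderAt_nonneg_iff_analyticAt, meromorphicOrderAt_congr (hgf z)]
    exact hord z
  have hgcont : Continuous g := continuous_iff_continuousAt.mpr fun z => (hgan z).continuousAt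
  have hgdiff : Differentiable ℂ g := fun z => (hgan z).differentiableAt
  have hgper : ∀ z w, w ∈ L.lattice → g (z + w) = g z := by
    intro z w hw
    have h1 : Tendsto g (𝓝[≠] z) (𝓝 (g z)) := (hgan z).continuousAt.tendsto.mono_left
      nhdsWithin_le_nhds
    have h2 : Tendsto (fun u => g (u + w)) (𝓝[≠] z) (𝓝 (g (z + w))) := by
      have : ContinuousAt (fun u => g (u + w)) z := by
        have := hgcont.comp (continuous_add_const w)
        exact this.continuousAt
      exact this.tendsto.mono_left nhdsWithin_le_nhds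
    have h3 : (fun u => g (u + w)) =ᶠ[𝓝[≠] z] g := by
      have e1 : ∀ᶠ u in 𝓝[≠] z, g (u + w) = f (u + w) := by
        have hmap : Tendsto (fun u => u + w) (𝓝[≠] z) (𝓝[≠] (z + w)) := by
          refine tendsto_nhdsWithin_of_tendsto_nhds_of_eventually_within _ ?_ ?_
          · exact ((continuous_add_const w).tendsto z).mono_left nhdsWithin_le_nhds
          · filter_upwards [self_mem_nhdsWithin] with u hu
            simpa using hu
        exact hmap.eventually (hgf (z + w))
      filter_upwards [e1, hgf z] with u h1 h2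
      rw [h1, h2, hper u w hw]
    exact tendsto_nhds_unique (h2.congr' h3) h1
  refine ⟨g 0, fun z hz => ?_⟩
  have h1 : g z = g 0 := hgdiff.apply_eq_apply_of_bounded
    (IsZLattice.isCompact_range_of_periodic L.lattice _ hgcont hgper).isBounded z 0
  rw [← h1]
  have h2 : Tendsto f (𝓝[≠] z) (𝓝 (f z)) := hz.tendsto.mono_left nhdsWithin_le_nhds
  have h3 : Tendsto g (𝓝[≠] z) (𝓝 (g z)) := (hgan z).continuousAt.tendsto.mono_left
    nhdsWithin_le_nhds
  exact tendsto_nhds_unique (h2.congr' (hgf z).symm) h3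

lemma isOpen_compl : IsOpen ((L.lattice : Set ℂ)ᶜ) := L.isClosed_lattice.isOpen_compl

variable {L}

lemma analyticAt_P {z : ℂ} (hz : z ∉ L.lattice) : AnalyticAt ℂ ℘[L] z :=
  L.analyticOnNhd_weierstrassP z hz

lemma analyticAt_P' {z : ℂ} (hz : z ∉ L.lattice) : AnalyticAt ℂ ℘'[L] z :=
  L.analyticOnNhd_derivWeierstrassP z hz

lemma hasDerivAt_P {z : ℂ} (hz : z ∉ L.lattice) : HasDerivAt ℘[L] (℘'[L] z) z := by
  have := (analyticAt_P hz).differentiableAt.hasDerivAt
  rwa [L.deriv_weierstrassP] at this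

lemma countable_lattice : (L.lattice : Set ℂ).Countable := by
  have : Countable L.lattice := L.latticeEquivProd.toEquiv.countable_iff.mpr inferInstance
  exact Set.countable_coe_iff.mp this

lemma isPreconnected_compl : IsPreconnected ((L.lattice : Set ℂ)ᶜ) := by
  have h : 1 < Module.rank ℝ ℂ := by
    rw [Complex.rank_real_complex]; norm_num
  exact (countable_lattice.isConnected_compl_of_one_lt_rank h).isPreconnected

/-- `℘'` does not vanish identically near a point. -/
lemma eventually_P'_ne_zero {z : ℂ} (hz : z ∉ L.lattice) : ∀ᶠ w in 𝓝[≠] z, ℘'[L] w ≠ 0 := by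
  rcases (analyticAt_P' hz).eventually_eq_zero_or_eventually_ne_zero with h | h
  swap
  · exact h
  · exfalso
    -- then `℘' = 0` on the complement of the lattice
    have h0 : ∀ w ∉ L.lattice, ℘'[L] w = 0 := by
      have := L.analyticOnNhd_derivWeierstrassP.eqOn_zero_of_preconnected_of_eventuallyEq_zero
        isPreconnected_compl hz h
      intro w hw
      exact this hw
    -- hence `℘` is constant near `0`
    have horder := L.order_weierstrassP 0 (zero_mem _)
    have hd : meromorphicOrderAt (deriv ℘[L]) 0 = ((-2 : ℤ) - 1 : ℤ) := by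
      apply meromorphicOrderAt_deriv_eq_sub_one
      · norm_num
      · exact horder
    rw [L.deriv_weierstrassP] at hd
    have h1 : meromorphicOrderAt ℘'[L] 0 = ⊤ := by
      rw [meromorphicOrderAt_eq_top_iff]
      have : ∀ᶠ w in 𝓝[≠] (0 : ℂ), w ∉ L.lattice := by
        filter_upwards [self_mem_nhdsWithin, mem_nhdsWithin_of_mem_nhds
          (L.compl_lattice_sdiff_singleton_mem_nhds 0)] with w hw hw'
        simp_all
      filter_upwards [this] with w hw
      exact h0 w hw
    rw [h1] at hd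
    exact WithTop.top_ne_coe hd

/-- `℘'' = 6 ℘² - g₂/2` -/
theorem hasDerivAt_P' {z : ℂ} (hz : z ∉ L.lattice) :
    HasDerivAt ℘'[L] (6 * ℘[L] z ^ 2 - L.g₂ / 2) z := by
  have hd := (analyticAt_P' hz).differentiableAt.hasDerivAt
  have key : ∀ w ∉ L.lattice, ℘'[L] w * (deriv ℘'[L] w - (6 * ℘[L] w ^ 2 - L.g₂ / 2)) = 0 := by
    intro w hw
    have h1 := (analyticAt_P' hw).differentiableAt.hasDerivAt
    have h2 := hasDerivAt_P hw
    have h3 : HasDerivAt (fun u => ℘'[L] u ^ 2 - (4 * ℘[L] u ^ 3 - L.g₂ * ℘[L] u - L.g₃))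
        ((2 : ℕ) * ℘'[L] w ^ (2 - 1) * deriv ℘'[L] w -
          (4 * ((3 : ℕ) * ℘[L] w ^ (3 - 1) * ℘'[L] w) - L.g₂ * ℘'[L] w)) w :=
      (h1.pow 2).sub ((((h2.pow 3).const_mul 4).sub (h2.const_mul _)).sub_const _)
    have h4 : (fun u => ℘'[L] u ^ 2 - (4 * ℘[L] u ^ 3 - L.g₂ * ℘[L] u - L.g₃)) =ᶠ[𝓝 w]
        fun _ => 0 := by
      filter_upwards [(isOpen_compl L).mem_nhds hw] with u hu
      rw [L.derivWeierstrassP_sq u hu, sub_self]
    have h5 := h3.congr_of_eventuallyEq h4.symm
    have h6 := h5.unique (hasDerivAt_const w (0 : ℂ))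
    simp only [Nat.add_one_sub_one, pow_one, Nat.cast_ofNat] at h6
    linear_combination h6 / 2
  have hne := eventually_P'_ne_zero hz
  -- `deriv ℘' - (6 ℘² - g₂/2)` vanishes near `z`
  have hcont : ContinuousAt (fun w => deriv ℘'[L] w - (6 * ℘[L] w ^ 2 - L.g₂ / 2)) z := by
    have h1 : ContinuousAt (deriv ℘'[L]) z := (analyticAt_P' hz).deriv.continuousAt
    have h2 : ContinuousAt ℘[L] z := (analyticAt_P hz).continuousAt
    fun_prop
  have h0 : ∀ᶠ w in 𝓝[≠] z, deriv ℘'[L] w - (6 * ℘[L] w ^ 2 - L.g₂ / 2) = 0 := by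
    filter_upwards [hne, mem_nhdsWithin_of_mem_nhds ((isOpen_compl L).mem_nhds hz)] with w hw hw'
    exact (mul_eq_zero.mp (key w hw')).resolve_left hw
  have h1 : Tendsto (fun w => deriv ℘'[L] w - (6 * ℘[L] w ^ 2 - L.g₂ / 2)) (𝓝[≠] z) (𝓝 0) :=
    (tendsto_const_nhds).congr' (h0.mono fun w hw => hw.symm)
  have h2 := tendsto_nhds_unique h1 (hcont.tendsto.mono_left nhdsWithin_le_nhds)
  have h3 : deriv ℘'[L] z = 6 * ℘[L] z ^ 2 - L.g₂ / 2 := by
    linear_combination -h2
  rwa [h3] at hd

end Fermat.Agent.WP
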