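import Fermat.Agent.WP.Surj
import Fermat.Agent.ECP.PointX

set_option autoImplicit false

/-!
# The uniformization `ℂ → W(ℂ)`
-/

namespace Fermat.Agent.WP

open PeriodPair Filter Topology WeierstrassCurve WeierstrassCurve.Affine
  WeierstrassCurve.Affine.Point Fermat.Agent.ECP

/-- The lattice `L` uniformizes the curve `W`. -/
structure Unif (L : PeriodPair) (W : WeierstrassCurve ℂ) : Prop where
  g2 : 12 * L.g₂ = W.c₄
  g3 : 216 * L.g₃ = W.c₆

variable {L : PeriodPair} {W : WeierstrassCurve ℂ}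

noncomputable section

/-- x-coordinate -/
def psiX (L : PeriodPair) (W : WeierstrassCurve ℂ) (z : ℂ) : ℂ := ℘[L] z - W.b₂ / 12

/-- y-coordinate -/
def psiY (L : PeriodPair) (W : WeierstrassCurve ℂ) (z : ℂ) : ℂ :=
  (℘'[L] z - W.a₁ * psiX L W z - W.a₃) / 2

lemma psi_equation (h : Unif L W) {z : ℂ} (hz : z ∉ L.lattice) :
    W.toAffine.Equation (psiX L W z) (psiY L W z) := by
  rw [Affine.equation_iff]
  have hode := L.derivWeierstrassP_sq z hz
  have h2 := h.g2
  have h3 := h.g3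
  simp only [WeierstrassCurve.c₄, WeierstrassCurve.c₆, WeierstrassCurve.b₂, WeierstrassCurve.b₄,
    WeierstrassCurve.b₆] at h2 h3
  simp only [psiX, psiY, WeierstrassCurve.b₂]
  have e2 : L.g₂ = ((W.a₁ ^ 2 + 4 * W.a₂) ^ 2 - 24 * (2 * W.a₄ + W.a₁ * W.a₃)) / 12 := by
    linear_combination h2 / 12
  have e3 : L.g₃ = (-(W.a₁ ^ 2 + 4 * W.a₂) ^ 3 + 36 * (W.a₁ ^ 2 + 4 * W.a₂) *
      (2 * W.a₄ + W.a₁ * W.a₃) - 216 * (W.a₃ ^ 2 + 4 * W.a₆)) / 216 := by
    linear_combination h3 / 216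
  rw [e2, e3] at hode
  linear_combination hode / 4

open Classical in
/-- The uniformization map. -/
def psi [W.IsElliptic] (h : Unif L W) (z : ℂ) : W.toAffine.Point :=
  if hz : z ∈ L.lattice then 0 else
    Point.some (psiX L W z) (psiY L W z) (Affine.equation_iff_nonsingular.mp (psi_equation h hz))

variable [W.IsElliptic] (h : Unif L W)

lemma psi_of_mem {z : ℂ} (hz : z ∈ L.lattice) : psi h z = 0 := by
  simp [psi, hz]

lemma psi_of_not_mem {z : ℂ} (hz : z ∉ L.lattice) : psi h z =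
    Point.some (psiX L W z) (psiY L W z)
      (Affine.equation_iff_nonsingular.mp (psi_equation h hz)) := by
  simp [psi, hz]

lemma psi_eq_zero_iff {z : ℂ} : psi h z = 0 ↔ z ∈ L.lattice := by
  constructor
  · intro h0
    by_contra hz
    rw [psi_of_not_mem h hz] at h0
    exact Point.some_ne_zero _ h0
  · exact psi_of_mem h

lemma xc_psi {z : ℂ} (hz : z ∉ L.lattice) : xc (psi h z) = ℘[L] z - W.b₂ / 12 := by
  rw [psi_of_not_mem h hz]; rfl

lemma tc_psi {z : ℂ} (hz : z ∉ L.lattice) : tc (psi h z) = ℘'[L] z := by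
  rw [psi_of_not_mem h hz, tc_some, psiY]; ring

lemma psi_add_mem {z l : ℂ} (hl : l ∈ L.lattice) : psi h (z + l) = psi h z := by
  by_cases hz : z ∈ L.lattice
  · rw [psi_of_mem h hz, psi_of_mem h (add_mem hz hl)]
  · have hz' : z + l ∉ L.lattice := fun h' => hz (by simpa using sub_mem h' hl)
    rw [psi_of_not_mem h hz, psi_of_not_mem h hz']
    simp only [psiX, psiY, P_add_mem hl, P'_add_mem hl]

lemma neg_not_mem {z : ℂ} (hz : z ∉ L.lattice) : -z ∉ L.lattice :=
  fun h' => hz (by simpa using neg_mem h')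

lemma psi_neg (z : ℂ) : psi h (-z) = - psi h z := by
  by_cases hz : z ∈ L.lattice
  · rw [psi_of_mem h hz, psi_of_mem h (neg_mem hz), _root_.neg_zero]
  · rw [psi_of_not_mem h hz, psi_of_not_mem h (neg_not_mem hz), Point.neg_some,
      Point.some.injEq]
    simp only [psiX, psiY, Affine.negY, L.weierstrassP_neg, L.derivWeierstrassP_neg]
    refine ⟨trivial, ?_⟩
    ring

/-- points with different `℘`. -/
lemma xc_psi_sub {z w : ℂ} (hz : z ∉ L.lattice) (hw : w ∉ L.lattice) :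
    xc (psi h z) - xc (psi h w) = ℘[L] z - ℘[L] w := by
  rw [xc_psi h hz, xc_psi h hw]; ring

omit [W.IsElliptic] in
lemma tc_eq_zero_iff' {P : W.toAffine.Point} (hP : P ≠ 0) : P = -P ↔ tc P = 0 := by
  classical
  rw [← two_smul_eq_zero_iff hP, two_nsmul, add_eq_zero_iff_eq_neg]

lemma P_ne_of_xc {z w : ℂ} (hz : z ∉ L.lattice) (hw : w ∉ L.lattice)
    (hne : psi h z ≠ psi h w) (hne' : psi h z ≠ - psi h w) : ℘[L] z ≠ ℘[L] w := by
  intro he
  have h1 : xc (psi h z) = xc (psi h w) := by rw [xc_psi h hz, xc_psi h hw, he]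
  rcases (xc_eq_iff (fun h0 => hz ((psi_eq_zero_iff h).mp h0))
    (fun h0 => hw ((psi_eq_zero_iff h).mp h0))).mp h1 with h2 | h2
  · exact hne h2
  · exact hne' h2

/-- `℘ z = ℘ w` for generic `z, w` is impossible: uses the addition formulas. -/
lemma P_ne {z w : ℂ} (hz : z ∉ L.lattice) (hw : w ∉ L.lattice) (h1 : z - w ∉ L.lattice)
    (h2 : z + w ∉ L.lattice) (h3 : ℘'[L] w ≠ 0) : ℘[L] z ≠ ℘[L] w := by
  intro he
  have e1 := P_add_add_P_sub hz hw h1 h2
  rw [he] at e1
  have hode := L.derivWeierstrassP_sq w hw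
  apply h3
  have : ℘'[L] w ^ 2 = 0 := by
    linear_combination hode - e1
  exact pow_eq_zero_iff (two_ne_zero) |>.mp this

/-- `x`-level additivity -/
lemma psi_add_or {z w : ℂ} (hz : z ∉ L.lattice) (hw : w ∉ L.lattice) (h1 : z - w ∉ L.lattice)
    (h2 : z + w ∉ L.lattice) (h3 : ℘'[L] w ≠ 0) :
    xc (psi h z + psi h w) = xc (psi h (z + w)) := by
  have hne := P_ne hz hw h1 h2 h3
  have hz0 : psi h z ≠ 0 := fun h0 => hz ((psi_eq_zero_iff h).mp h0)
  have hw0 : psi h w ≠ 0 := fun h0 => hw ((psi_eq_zero_iff h).mp h0)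
  have hx : xc (psi h z) ≠ xc (psi h w) := by
    rw [← sub_ne_zero, xc_psi_sub h hz hw]
    exact sub_ne_zero.mpr hne
  have a1 := ECP.A1 hz0 hw0 hx
  have a3 := ECP.A3 hz0 hw0 hx
  have b1 := P_add_add_P_sub hz hw h1 h2
  have b3 := P_sub_sub_P_add hz hw h1 h2
  rw [xc_psi_sub h hz hw] at a1 a3
  rw [tc_psi h hz, tc_psi h hw] at a3
  rw [xc_psi h h2]
  have hD : (℘[L] z - ℘[L] w) ^ 2 ≠ 0 := pow_ne_zero _ (sub_ne_zero.mpr hne)
  have hg2 := h.g2
  have hg3 := h.g3
  simp only [WeierstrassCurve.c₄, WeierstrassCurve.c₆] at hg2 hg3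
  rw [xc_psi h hz, xc_psi h hw] at a1
  apply mul_right_cancel₀ hD
  rw [show WeierstrassCurve.b₂ W.toAffine = W.b₂ from rfl,
    show WeierstrassCurve.b₄ W.toAffine = W.b₄ from rfl,
    show WeierstrassCurve.b₆ W.toAffine = W.b₆ from rfl] at a1
  linear_combination (a1 - a3 - b1 + b3) / 2 + (℘[L] z + ℘[L] w) / 48 * hg2 + hg3 / 432

/-- generic additivity -/
lemma psi_add_generic {z w : ℂ} (hz : z ∉ L.lattice) (hw : w ∉ L.lattice) (h1 : z - w ∉ L.lattice)
    (h2 : z + w ∉ L.lattice) (h3 : ℘'[L] w ≠ 0) (h4 : z + w + w ∉ L.lattice) :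
    psi h (z + w) = psi h z + psi h w := by
  have hz0 : psi h z ≠ 0 := fun h0 => hz ((psi_eq_zero_iff h).mp h0)
  have hw0 : psi h w ≠ 0 := fun h0 => hw ((psi_eq_zero_iff h).mp h0)
  have hzw0 : psi h (z + w) ≠ 0 := fun h0 => h2 ((psi_eq_zero_iff h).mp h0)
  have hne := P_ne hz hw h1 h2 h3
  have hx : xc (psi h z) ≠ xc (psi h w) := by
    rw [← sub_ne_zero, xc_psi_sub h hz hw]
    exact sub_ne_zero.mpr hne
  have hs0 : psi h z + psi h w ≠ 0 := add_ne_zero_of_xc_ne hx
  have key1 := (xc_eq_iff hs0 hzw0).mp (psi_add_or h hz hw h1 h2 h3)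
  rcases key1 with k | k
  · exact k.symm
  -- bad sign: `A + B = - psi (z + w)`
  have hw' : -w ∉ L.lattice := neg_not_mem hw
  have h3' : ℘'[L] (-w) ≠ 0 := by rwa [L.derivWeierstrassP_neg, neg_ne_zero]
  have key2 := psi_add_or h h2 hw' (by rwa [sub_neg_eq_add]) (by simpa using hz) h3'
  rw [psi_neg, add_neg_cancel_right] at key2
  have hz2 : psi h (z + w) + -psi h w ≠ 0 := by
    apply add_ne_zero_of_xc_ne
    rw [xc_neg, ← sub_ne_zero, xc_psi_sub h h2 hw]
    refine sub_ne_zero.mpr (P_ne h2 hw ?_ h4 h3)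
    simpa using hz
  have key3 := (xc_eq_iff hz2 hz0).mp key2
  rcases key3 with k3 | k3
  · rw [← k3]; abel
  · -- `psi (z+w) - B = -A`, `A + B = - psi (z+w)`: so `2 B = 0`?
    exfalso
    have e : psi h w = - psi h w := by
      have e1 : psi h (z + w) = - (psi h z + psi h w) := by rw [k, neg_neg]
      rw [e1] at k3
      have e2 : -(psi h z + psi h w) + -psi h w + psi h z = 0 := by rw [k3]; abel
      have e3 : -(psi h z + psi h w) + -psi h w + psi h z = - psi h w - psi h w := by abel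
      rw [e3, sub_eq_zero] at e2
      exact e2.symm
    rw [tc_eq_zero_iff' hw0, tc_psi h hw] at e
    exact h3 e

lemma eventually_P'_ne_zero' (x : ℂ) : ∀ᶠ w in 𝓝[≠] x, ℘'[L] w ≠ 0 := by
  by_cases hxL : x ∈ L.lattice
  · obtain ⟨v, hv, hv'⟩ := exists_P'_eq (L := L)
    have h1 : ∀ᶠ z in 𝓝[≠] (0 : ℂ), ℘'[L] z ≠ 0 := by
      have hc : ContinuousAt (fun z => -2 + z ^ 4 * v z) 0 := by
        have := hv.continuousAt
        fun_prop
      have hne : ∀ᶠ z in 𝓝 (0 : ℂ), -2 + z ^ 4 * v z ≠ 0 :=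
        hc.eventually_ne (by norm_num)
      filter_upwards [self_mem_nhdsWithin, mem_nhdsWithin_of_mem_nhds hne] with z hz hz'
      have hz0 : z ≠ 0 := hz
      rw [hv' z]
      intro h0
      apply hz'
      field_simp at h0
      linear_combination h0
    have h2 := (tendsto_add_nhdsNE x (-x)).eventually (by rw [add_neg_cancel]; exact h1)
    filter_upwards [h2] with w hw hcon
    apply hw
    rw [P'_add_mem (neg_mem hxL)]
    exact hcon
  · exact eventually_P'_ne_zero hxL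

lemma eventually_add (a : ℂ) {p : ℂ → Prop} (hp : ∀ x, ∀ᶠ w in 𝓝[≠] x, p w) :
    ∀ᶠ u in 𝓝[≠] (0 : ℂ), p (a + u) := by
  have := (tendsto_add_nhdsNE 0 a).eventually (hp (0 + a))
  filter_upwards [this] with u hu
  rwa [add_comm]

lemma eventually_sub (a : ℂ) {p : ℂ → Prop} (hp : ∀ x, ∀ᶠ w in 𝓝[≠] x, p w) :
    ∀ᶠ u in 𝓝[≠] (0 : ℂ), p (a - u) := by
  have hn : Tendsto (fun u : ℂ => -u) (𝓝[≠] 0) (𝓝[≠] 0) := by
    refine tendsto_nhdsWithin_of_tendsto_nhds_of_eventually_within _ ?_ ?_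
    · have := (continuous_neg (G := ℂ)).tendsto 0
      rw [_root_.neg_zero] at this
      exact this.mono_left nhdsWithin_le_nhds
    · filter_upwards [self_mem_nhdsWithin] with u hu
      simpa using hu
  have := hn.eventually (eventually_add a hp)
  filter_upwards [this] with u hu
  rwa [← sub_eq_add_neg] at hu

lemma eventually_two (a : ℂ) {p : ℂ → Prop} (hp : ∀ x, ∀ᶠ w in 𝓝[≠] x, p w) :
    ∀ᶠ u in 𝓝[≠] (0 : ℂ), p (a + 2 * u) := by
  have hn : Tendsto (fun u : ℂ => 2 * u) (𝓝[≠] 0) (𝓝[≠] 0) := by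
    refine tendsto_nhdsWithin_of_tendsto_nhds_of_eventually_within _ ?_ ?_
    · have : Tendsto (fun u : ℂ => 2 * u) (𝓝 0) (𝓝 (2 * 0)) :=
        Continuous.tendsto (by fun_prop) 0
      rw [mul_zero] at this
      exact this.mono_left nhdsWithin_le_nhds
    · filter_upwards [self_mem_nhdsWithin] with u hu
      simpa using hu
  exact hn.eventually (eventually_add a hp)

/-- semi-generic additivity -/
lemma psi_add_eventually (a b : ℂ) :
    ∀ᶠ u in 𝓝[≠] (0 : ℂ), psi h (a + (b + u)) = psi h a + psi h (b + u) := by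
  by_cases ha : a ∈ L.lattice
  · refine Eventually.of_forall fun u => ?_
    rw [psi_of_mem h ha, _root_.zero_add, add_comm a, psi_add_mem h ha]
  · have hL := fun x => eventually_nhdsNE_not_mem (L := L) x
    have hP := fun x => eventually_P'_ne_zero' (L := L) x
    filter_upwards [eventually_add b hL, eventually_sub (a - b) hL, eventually_add (a + b) hL,
      eventually_add b hP, eventually_two (a + b + b) hL] with u h1 h2 h3 h4 h5
    exact psi_add_generic h ha h1 (by rw [show a - (b + u) = a - b - u by ring]; exact h2)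
      (by rw [show a + (b + u) = a + b + u by ring]; exact h3) h4
      (by rw [show a + (b + u) + (b + u) = a + b + b + 2 * u by ring]; exact h5)

/-- **The uniformization is additive.** -/
theorem psi_add (a b : ℂ) : psi h (a + b) = psi h a + psi h b := by
  obtain ⟨u, h1, h2, h3⟩ := ((psi_add_eventually h a b).and
    ((psi_add_eventually h b 0).and (psi_add_eventually h (a + b) 0))).exists
  rw [_root_.zero_add] at h2 h3
  have e : psi h (a + b) + psi h u = psi h a + psi h b + psi h u := by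
    rw [← h3, add_assoc, h1, h2, add_assoc]
  exact add_right_cancel e

/-- The uniformization as a group homomorphism. -/
def psiHom : ℂ →+ W.toAffine.Point where
  toFun := psi h
  map_zero' := psi_of_mem h (zero_mem _)
  map_add' := psi_add h

@[simp] lemma psiHom_apply (z : ℂ) : psiHom h z = psi h z := rfl

lemma mem_ker_psiHom {z : ℂ} : z ∈ (psiHom h).ker ↔ z ∈ L.lattice := by
  rw [AddMonoidHom.mem_ker, psiHom_apply, psi_eq_zero_iff]

theorem psi_surjective : Function.Surjective (psi h) := by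
  intro P
  by_cases hP : P = 0
  · exact ⟨0, by rw [hP]; exact psi_of_mem h (zero_mem _)⟩
  obtain ⟨z, hz, hz'⟩ := exists_P_eq_val (L := L) (xc P + W.b₂ / 12)
  have h0 : psi h z ≠ 0 := fun h0 => hz ((psi_eq_zero_iff h).mp h0)
  have hx : xc (psi h z) = xc P := by rw [xc_psi h hz, hz']; ring
  rcases (xc_eq_iff h0 hP).mp hx with k | k
  · exact ⟨z, k⟩
  · exact ⟨-z, by rw [psi_neg, k, neg_neg]⟩

lemma psi_eq_iff {a b : ℂ} : psi h a = psi h b ↔ a - b ∈ L.lattice := by
  rw [← psi_eq_zero_iff h, sub_eq_add_neg, psi_add, psi_neg, ← sub_eq_add_neg, sub_eq_zero]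

lemma psi_nsmul (n : ℕ) (z : ℂ) : psi h (n * z) = n • psi h z := by
  have := map_nsmul (psiHom h) n z
  simpa [nsmul_eq_mul] using this

lemma psi_zsmul (n : ℤ) (z : ℂ) : psi h (n * z) = n • psi h z := by
  have := map_zsmul (psiHom h) n z
  simpa [zsmul_eq_mul] using this

end

end Fermat.Agent.WP
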