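import Fermat.Agent.JInv.Inj
import Fermat.Agent.JInv.JFun
import Fermat.Agent.WP.Psi

set_option autoImplicit false

/-!
# Every elliptic curve over `ℂ` is uniformized
-/

namespace Fermat.Agent.WP

open PeriodPair Fermat.Agent.JInv UpperHalfPlane ModularForm EisensteinSeries

noncomputable section

lemma zeta_six : riemannZeta 6 = (Real.pi : ℂ) ^ 6 / 945 := by
  have h := riemannZeta_two_mul_nat (k := 3) (by norm_num)
  have e : (2 * (3 : ℕ) : ℂ) = 6 := by norm_num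
  rw [e] at h
  rw [h, show bernoulli (2 * 3) = 1 / 42 by decide +kernel]
  norm_num [Nat.factorial]
  ring

lemma g2_pairOf (τ : ℍ) (s : ℂ) (hs : s ≠ 0) :
    12 * (pairOf τ s hs).g₂ = (2 * Real.pi / s) ^ 4 * E₄ τ := by
  rw [PeriodPair.g₂, G_pairOf τ s hs 4 (by norm_num)]
  have : riemannZeta (4 : ℕ) = (Real.pi : ℂ) ^ 4 / 90 := by exact_mod_cast riemannZeta_four
  rw [this]
  field_simp
  ring

lemma g3_pairOf (τ : ℍ) (s : ℂ) (hs : s ≠ 0) :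
    216 * (pairOf τ s hs).g₃ = (2 * Real.pi / s) ^ 6 * E₆ τ := by
  rw [PeriodPair.g₃, G_pairOf τ s hs 6 (by norm_num)]
  have : riemannZeta (6 : ℕ) = (Real.pi : ℂ) ^ 6 / 945 := by exact_mod_cast zeta_six
  rw [this]
  field_simp
  ring

/-- the `j`-invariant of a lattice -/
def jLat (L : PeriodPair) : ℂ := 1728 * (12 * L.g₂) ^ 3 / ((12 * L.g₂) ^ 3 - (216 * L.g₃) ^ 2)

lemma disc_pairOf (τ : ℍ) (s : ℂ) (hs : s ≠ 0) :
    (12 * (pairOf τ s hs).g₂) ^ 3 - (216 * (pairOf τ s hs).g₃) ^ 2 =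
      (2 * Real.pi / s) ^ 12 * (1728 * discriminant τ) := by
  rw [g2_pairOf, g3_pairOf, discriminant_eq_E₄_cube_sub_E₆_sq]
  ring

lemma two_pi_div_ne {s : ℂ} (hs : s ≠ 0) : (2 * Real.pi / s : ℂ) ≠ 0 := by
  have : (Real.pi : ℂ) ≠ 0 := by exact_mod_cast Real.pi_ne_zero
  exact div_ne_zero (mul_ne_zero two_ne_zero this) hs

lemma jLat_pairOf (τ : ℍ) (s : ℂ) (hs : s ≠ 0) : jLat (pairOf τ s hs) = jInv τ := by
  rw [jLat, disc_pairOf, g2_pairOf, jInv]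
  have h1 := two_pi_div_ne hs
  have h2 := discriminant_ne_zero τ
  set a := (2 * Real.pi / s : ℂ)
  field_simp

theorem exists_unif (W : WeierstrassCurve ℂ) (hΔ : W.Δ ≠ 0) :
    ∃ (τ : ℍ) (s : ℂ) (hs : s ≠ 0), Unif (pairOf τ s hs) W := by
  have hrel : 1728 * W.Δ = W.c₄ ^ 3 - W.c₆ ^ 2 := W.c_relation
  obtain ⟨τ, hτ⟩ := jInv_surjective (W.c₄ ^ 3 / W.Δ)
  have hD := discriminant_ne_zero τ
  have h6 := jInv_sub_1728 τ
  have hD' := discriminant_eq_E₄_cube_sub_E₆_sq τ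
  set D := discriminant τ with hDdef
  -- scale
  obtain ⟨l, hl⟩ := IsAlgClosed.exists_pow_nat_eq (W.Δ / D) (n := 12) (by norm_num)
  have hl0 : l ≠ 0 := by
    rintro rfl
    rw [zero_pow (by norm_num)] at hl
    exact (div_ne_zero hΔ hD) hl.symm
  have e4 : (l ^ 4 * E₄ τ) ^ 3 = W.c₄ ^ 3 := by
    have : E₄ τ ^ 3 / D = W.c₄ ^ 3 / W.Δ := by rw [← hτ]; rfl
    rw [div_eq_div_iff hD hΔ] at this
    rw [mul_pow, ← pow_mul, hl]
    field_simp
    linear_combination this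
  have e6 : (l ^ 6 * E₆ τ) ^ 2 = W.c₆ ^ 2 := by
    rw [hτ] at h6
    have : W.c₆ ^ 2 / W.Δ = E₆ τ ^ 2 / D := by
      rw [← h6]
      field_simp
      linear_combination hrel
    rw [div_eq_div_iff hΔ hD] at this
    rw [mul_pow, ← pow_mul, hl]
    field_simp
    linear_combination -this
  -- adjust for `c₄`
  obtain ⟨l₁, hl₁, f4, f6⟩ : ∃ l₁ : ℂ, l₁ ≠ 0 ∧ l₁ ^ 4 * E₄ τ = W.c₄ ∧
      (l₁ ^ 6 * E₆ τ) ^ 2 = W.c₆ ^ 2 := by
    by_cases hc : W.c₄ = 0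
    · refine ⟨l, hl0, ?_, e6⟩
      rw [hc] at e4 ⊢
      exact pow_eq_zero_iff (three_ne_zero) |>.mp (by rw [e4]; ring)
    · set ω := W.c₄ / (l ^ 4 * E₄ τ) with hω
      have hE : l ^ 4 * E₄ τ ≠ 0 := by
        intro h0
        rw [h0, zero_pow three_ne_zero] at e4
        exact hc (pow_eq_zero_iff (three_ne_zero) |>.mp e4.symm)
      have hω3 : ω ^ 3 = 1 := by
        rw [hω, div_pow, e4, div_self (pow_ne_zero _ hc)]
      have hω0 : ω ≠ 0 := by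
        intro h0; rw [h0] at hω3; norm_num at hω3
      refine ⟨l * ω, mul_ne_zero hl0 hω0, ?_, ?_⟩
      · have : ω ^ 4 = ω := by linear_combination ω * hω3
        rw [mul_pow, this, mul_right_comm, hω, mul_div_cancel₀ _ hE]
      · have : ω ^ 6 = 1 := by linear_combination (ω ^ 3 + 1) * hω3
        rw [mul_pow l ω 6, this, mul_one, e6]
  obtain ⟨l₂, hl₂, k4, k6⟩ : ∃ l₂ : ℂ, l₂ ≠ 0 ∧ l₂ ^ 4 * E₄ τ = W.c₄ ∧
      l₂ ^ 6 * E₆ τ = W.c₆ := by
    rcases sq_eq_sq_iff_eq_or_eq_neg.mp f6 with k | k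
    · exact ⟨l₁, hl₁, f4, k⟩
    · refine ⟨l₁ * Complex.I, mul_ne_zero hl₁ Complex.I_ne_zero, ?_, ?_⟩
      · rw [mul_pow, Complex.I_pow_four, mul_one, f4]
      · have : Complex.I ^ 6 = -1 := by
          rw [show (6 : ℕ) = 4 + 2 by norm_num, pow_add, Complex.I_pow_four, Complex.I_sq]; ring
        rw [mul_pow, this]
        linear_combination -k
  have hpi : (Real.pi : ℂ) ≠ 0 := by exact_mod_cast Real.pi_ne_zero
  have hs : (2 * Real.pi / l₂ : ℂ) ≠ 0 := two_pi_div_ne hl₂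
  have e : (2 * Real.pi / (2 * Real.pi / l₂) : ℂ) = l₂ := by
    field_simp
  exact ⟨τ, 2 * Real.pi / l₂, hs, by rw [g2_pairOf, e, k4], by rw [g3_pairOf, e, k6]⟩

end

end Fermat.Agent.WP
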