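import Fermat.Agent.WP.Sup

set_option autoImplicit false

/-!
# Half periods
-/

namespace Fermat.Agent.WP

open PeriodPair Filter Topology

noncomputable section

/-- `t` is a half period (not in the lattice). -/
structure IsHalf (L : PeriodPair) (t : ℂ) : Prop where
  not_mem : t ∉ L.lattice
  two_mem : 2 * t ∈ L.lattice

variable {L : PeriodPair} {t : ℂ}

/-- `X(z) = ℘(z) - ℘(t)` -/
def XX (L : PeriodPair) (t z : ℂ) : ℂ := ℘[L] z - ℘[L] t

/-- `β = 3 e² - g₂ / 4` -/
def bet (L : PeriodPair) (t : ℂ) : ℂ := 3 * ℘[L] t ^ 2 - L.g₂ / 4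

lemma IsHalf.P' (h : IsHalf L t) : ℘'[L] t = 0 := P'_eq_zero_of_two_mul_mem h.two_mem

lemma IsHalf.g3 (h : IsHalf L t) : L.g₃ = 4 * ℘[L] t ^ 3 - L.g₂ * ℘[L] t := by
  have := L.derivWeierstrassP_sq t h.not_mem
  rw [h.P'] at this
  linear_combination this

lemma eventually_P_ne {z : ℂ} (hz : z ∉ L.lattice) (c : ℂ) : ∀ᶠ w in 𝓝[≠] z, ℘[L] w ≠ c := by
  have h1 : AnalyticAt ℂ (fun w => ℘[L] w - c) z := (analyticAt_P hz).sub analyticAt_const
  rcases h1.eventually_eq_zero_or_eventually_ne_zero with h | h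
  · exfalso
    have h2 : ℘[L] =ᶠ[𝓝 z] fun _ => c := h.mono fun w hw => sub_eq_zero.mp hw
    have h3 : ∀ᶠ w in 𝓝[≠] z, ℘'[L] w = 0 := by
      have := h2.deriv
      rw [L.deriv_weierstrassP] at this
      filter_upwards [mem_nhdsWithin_of_mem_nhds this] with w hw
      rw [hw]; simp
    obtain ⟨w, hw1, hw2⟩ := (h3.and (eventually_P'_ne_zero hz)).exists
    exact hw2 hw1
  · filter_upwards [h] with w hw hcon
    exact hw (sub_eq_zero.mpr hcon)

lemma IsHalf.sub_not_mem (h : IsHalf L t) {z : ℂ} (hz : z + t ∉ L.lattice) : z - t ∉ L.lattice := by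
  intro h'
  apply hz
  have := add_mem h' h.two_mem
  rwa [show z - t + 2 * t = z + t by ring] at this

lemma IsHalf.P_sub (h : IsHalf L t) (z : ℂ) : ℘[L] (z - t) = ℘[L] (z + t) := by
  have := P_add_mem (L := L) (z := z - t) h.two_mem
  rw [show z - t + 2 * t = z + t by ring] at this
  exact this.symm

lemma half_aux (h : IsHalf L t) {z : ℂ} (hz : z ∉ L.lattice) (hzt : z + t ∉ L.lattice) :
    (℘[L] z - ℘[L] t) * ((℘[L] z - ℘[L] t) * (℘[L] (z + t) - ℘[L] t) - bet L t) = 0 := by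
  have h1 := P_add_add_P_sub hz h.not_mem (h.sub_not_mem hzt) hzt
  rw [h.P_sub, h.g3] at h1
  unfold bet
  linear_combination h1 / 2

/-- **Half-period formula.** -/
theorem half_mul (h : IsHalf L t) {z : ℂ} (hz : z ∉ L.lattice) (hzt : z + t ∉ L.lattice) :
    XX L t z * XX L t (z + t) = bet L t := by
  have hzt' : AnalyticAt ℂ (fun z => ℘[L] (z + t)) z :=
    (analyticAt_P hzt).comp_of_eq (g := ℘[L]) (f := fun z => z + t) (by fun_prop) rfl
  have hcont : ContinuousAt (fun w => (℘[L] w - ℘[L] t) * (℘[L] (w + t) - ℘[L] t)) z := by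
    have h1 := (analyticAt_P hz).continuousAt
    have h2 := hzt'.continuousAt
    fun_prop
  have h2 : Tendsto (fun w => (℘[L] w - ℘[L] t) * (℘[L] (w + t) - ℘[L] t)) (𝓝[≠] z)
      (𝓝 (bet L t)) := by
    refine tendsto_const_nhds.congr' ?_
    have e1 := eventually_P_ne hz (℘[L] t)
    have e2 := eventually_nhdsNE_not_mem (L := L) z
    have e3 := (tendsto_add_nhdsNE z t).eventually (eventually_nhdsNE_not_mem (L := L) (z + t))
    filter_upwards [e1, e2, e3] with w h1 h2 h3
    have := half_aux h h2 h3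
    exact (sub_eq_zero.mp ((mul_eq_zero.mp this).resolve_left (sub_ne_zero.mpr h1))).symm
  exact tendsto_nhds_unique (hcont.tendsto.mono_left nhdsWithin_le_nhds) h2

lemma bet_ne_zero (h : IsHalf L t) : bet L t ≠ 0 := by
  -- a generic point
  obtain ⟨z₀, hz₀, -⟩ := exists_P_eq_val (L := L) 0
  obtain ⟨z₁, hz₁, hz₁'⟩ : ∃ z₁, z₁ ∉ L.lattice ∧ z₁ + t ∉ L.lattice := by
    have e2 := eventually_nhdsNE_not_mem (L := L) z₀
    have e3 := (tendsto_add_nhdsNE z₀ t).eventually (eventually_nhdsNE_not_mem (L := L) (z₀ + t))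
    exact (e2.and e3).exists
  have e1 := eventually_P_ne hz₁ (℘[L] t)
  have e2 := (tendsto_add_nhdsNE z₁ t).eventually (eventually_P_ne hz₁' (℘[L] t))
  have e3 := eventually_nhdsNE_not_mem (L := L) z₁
  have e4 := (tendsto_add_nhdsNE z₁ t).eventually (eventually_nhdsNE_not_mem (L := L) (z₁ + t))
  obtain ⟨w, h1, h2, h3, h4⟩ := (e1.and (e2.and (e3.and e4))).exists
  rw [← half_mul h h3 h4]
  exact mul_ne_zero (sub_ne_zero.mpr h1) (sub_ne_zero.mpr h2)

lemma XX_ne_zero (h : IsHalf L t) {z : ℂ} (hz : z ∉ L.lattice) (hzt : z + t ∉ L.lattice) :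
    XX L t z ≠ 0 := by
  intro h0
  have := half_mul h hz hzt
  rw [h0, zero_mul] at this
  exact bet_ne_zero h this.symm

lemma XX_add_mem {z l : ℂ} (hl : l ∈ L.lattice) : XX L t (z + l) = XX L t z := by
  simp only [XX, P_add_mem hl]

lemma meromorphicAt_XX (z : ℂ) : MeromorphicAt (XX L t) z :=
  (meromorphicAt_P z).sub (MeromorphicAt.const _ z)

lemma analyticAt_XX {z : ℂ} (hz : z ∉ L.lattice) : AnalyticAt ℂ (XX L t) z :=
  (analyticAt_P hz).sub analyticAt_const

lemma order_XX_mem {z : ℂ} (hz : z ∈ L.lattice) : meromorphicOrderAt (XX L t) z = -2 := by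
  have h1 : meromorphicOrderAt (fun _ : ℂ => -℘[L] t) z ≥ 0 :=
    analyticAt_const.meromorphicOrderAt_nonneg
  have h2 := L.order_weierstrassP z hz
  have h3 : XX L t = ℘[L] + fun _ : ℂ => -℘[L] t := by
    ext w; simp [XX, sub_eq_add_neg]
  rw [h3, meromorphicOrderAt_add_eq_left_of_lt (MeromorphicAt.const _ z), h2]
  rw [h2]
  refine lt_of_lt_of_le ?_ h1
  rw [neg_two_eq]
  exact_mod_cast (by norm_num : (-2 : ℤ) < 0)

lemma order_XX_other (h : IsHalf L t) {z : ℂ} (hz : z ∉ L.lattice) (hzt : z + t ∉ L.lattice) :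
    meromorphicOrderAt (XX L t) z = 0 := by
  have h1 := analyticAt_XX (t := t) hz
  rw [h1.meromorphicOrderAt_eq, h1.analyticOrderAt_eq_zero.mpr (XX_ne_zero h hz hzt)]
  rfl

lemma order_XX_half (h : IsHalf L t) {z : ℂ} (hzt : z + t ∈ L.lattice) :
    meromorphicOrderAt (XX L t) z = 2 := by
  have hm2 : MeromorphicAt (fun z => XX L t (z + t)) z :=
    MeromorphicAt.comp_analyticAt (g := fun z => z + t) (meromorphicAt_XX (z + t)) (by fun_prop)
  have e0 : meromorphicOrderAt (fun z => XX L t (z + t)) z = -2 := by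
    have : meromorphicOrderAt (fun z => XX L t (z + t)) z = meromorphicOrderAt (XX L t) (z + t) :=
      meromorphicOrderAt_fun_comp_add_const_eq_meromorphicOrderAt
    rw [this, order_XX_mem hzt]
  have e1 : (XX L t * fun z => XX L t (z + t)) =ᶠ[𝓝[≠] z] fun _ => bet L t := by
    have e2 := eventually_nhdsNE_not_mem (L := L) z
    have e3 := (tendsto_add_nhdsNE z t).eventually (eventually_nhdsNE_not_mem (L := L) (z + t))
    filter_upwards [e2, e3] with w h2 h3
    exact half_mul h h2 h3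
  have e2 := meromorphicOrderAt_congr e1
  rw [meromorphicOrderAt_mul (meromorphicAt_XX z) hm2, e0] at e2
  classical
  rw [meromorphicOrderAt_const, if_neg (bet_ne_zero h)] at e2
  -- solve in `WithTop ℤ`
  induction hx : meromorphicOrderAt (XX L t) z using WithTop.recTopCoe with
  | top => rw [hx] at e2; exact absurd e2 (by rw [neg_two_eq]; simp)
  | coe n =>
    rw [hx, neg_two_eq] at e2
    have : n + -2 = 0 := by exact_mod_cast e2
    have hn : n = 2 := by omega
    rw [hn]; rfl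

end

end Fermat.Agent.WP
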