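import Fermat.Agent.WP.SupHalf

set_option autoImplicit false

/-!
# Scaling of lattices; dependence on the lattice only
-/

namespace Fermat.Agent.WP

open PeriodPair Filter Topology

noncomputable section

lemma P_congr {L L' : PeriodPair} (h : L.lattice = L'.lattice) : ℘[L] = ℘[L'] := by
  unfold PeriodPair.weierstrassP
  rw [h]

lemma G_congr {L L' : PeriodPair} (h : L.lattice = L'.lattice) : L.G = L'.G := by
  funext n
  unfold PeriodPair.G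
  rw [h]

lemma g2_congr {L L' : PeriodPair} (h : L.lattice = L'.lattice) : L.g₂ = L'.g₂ := by
  unfold PeriodPair.g₂; rw [G_congr h]

lemma g3_congr {L L' : PeriodPair} (h : L.lattice = L'.lattice) : L.g₃ = L'.g₃ := by
  unfold PeriodPair.g₃; rw [G_congr h]

lemma jLat_congr {L L' : PeriodPair} (h : L.lattice = L'.lattice) : jLat L = jLat L' := by
  unfold jLat; rw [g2_congr h, g3_congr h]

lemma bet_congr {L L' : PeriodPair} (h : L.lattice = L'.lattice) (t : ℂ) : bet L t = bet L' t := by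
  unfold bet; rw [g2_congr h, P_congr h]

lemma linInd_scale (L : PeriodPair) {c : ℂ} (hc : c ≠ 0) :
    LinearIndependent ℝ ![c * L.ω₁, c * L.ω₂] := by
  have h := L.indep
  rw [LinearIndependent.pair_iff] at h ⊢
  intro a b hab
  apply h a b
  have : c * (a • L.ω₁ + b • L.ω₂) = 0 := by
    rw [← hab]; simp only [Complex.real_smul]; ring
  exact (mul_eq_zero.mp this).resolve_left hc

/-- The lattice `c L`. -/
def scaleP (c : ℂ) (hc : c ≠ 0) (L : PeriodPair) : PeriodPair :=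
  ⟨c * L.ω₁, c * L.ω₂, linInd_scale L hc⟩

variable {c : ℂ} {hc : c ≠ 0} {L : PeriodPair}

lemma mem_scaleP {x : ℂ} : x ∈ (scaleP c hc L).lattice ↔ ∃ y ∈ L.lattice, c * y = x := by
  rw [mem_lattice]
  constructor
  · rintro ⟨m, n, h⟩
    refine ⟨m * L.ω₁ + n * L.ω₂, mem_lattice.mpr ⟨m, n, rfl⟩, ?_⟩
    rw [← h]; simp only [scaleP]; ring
  · rintro ⟨y, hy, h⟩
    obtain ⟨m, n, rfl⟩ := mem_lattice.mp hy
    refine ⟨m, n, ?_⟩
    rw [← h]; simp only [scaleP]; ring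

lemma mul_mem_scaleP {y : ℂ} : c * y ∈ (scaleP c hc L).lattice ↔ y ∈ L.lattice := by
  rw [mem_scaleP]
  constructor
  · rintro ⟨z, hz, h⟩
    rwa [← mul_left_cancel₀ hc h]
  · exact fun h => ⟨y, h, rfl⟩

/-- the bijection `L ≃ c L` -/
def scaleEquiv (c : ℂ) (hc : c ≠ 0) (L : PeriodPair) : L.lattice ≃ (scaleP c hc L).lattice where
  toFun l := ⟨c * l, mul_mem_scaleP.mpr l.2⟩
  invFun l := ⟨c⁻¹ * l, by
    obtain ⟨y, hy, h⟩ := mem_scaleP.mp l.2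
    rw [← h, inv_mul_cancel_left₀ hc]; exact hy⟩
  left_inv l := Subtype.ext (by simp [hc])
  right_inv l := Subtype.ext (by simp [hc])

lemma G_scaleP (n : ℕ) : (scaleP c hc L).G n = (c ^ n)⁻¹ * L.G n := by
  unfold PeriodPair.G
  rw [← (scaleEquiv c hc L).tsum_eq, ← tsum_mul_left]
  refine tsum_congr fun l => ?_
  show ((c * (l : ℂ)) ^ n)⁻¹ = _
  rw [mul_pow, mul_inv]

lemma g2_scaleP : (scaleP c hc L).g₂ = (c ^ 4)⁻¹ * L.g₂ := by
  unfold PeriodPair.g₂; rw [G_scaleP]; ring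

lemma g3_scaleP : (scaleP c hc L).g₃ = (c ^ 6)⁻¹ * L.g₃ := by
  unfold PeriodPair.g₃; rw [G_scaleP]; ring

lemma P_scaleP (z : ℂ) : ℘[scaleP c hc L] (c * z) = (c ^ 2)⁻¹ * ℘[L] z := by
  unfold PeriodPair.weierstrassP
  rw [← (scaleEquiv c hc L).tsum_eq, ← tsum_mul_left]
  refine tsum_congr fun l => ?_
  show 1 / (c * z - c * (l : ℂ)) ^ 2 - 1 / (c * (l : ℂ)) ^ 2 = _
  rw [← mul_sub, mul_pow, mul_pow, one_div, one_div, mul_inv, mul_inv]
  ring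

lemma jLat_scaleP : jLat (scaleP c hc L) = jLat L := by
  unfold jLat
  rw [g2_scaleP, g3_scaleP]
  have h12 : (c ^ 12 : ℂ) ≠ 0 := pow_ne_zero _ hc
  have e1 : 1728 * (12 * ((c ^ 4)⁻¹ * L.g₂)) ^ 3 = (c ^ 12)⁻¹ * (1728 * (12 * L.g₂) ^ 3) := by
    field_simp
  have e2 : (12 * ((c ^ 4)⁻¹ * L.g₂)) ^ 3 - (216 * ((c ^ 6)⁻¹ * L.g₃)) ^ 2 =
      (c ^ 12)⁻¹ * ((12 * L.g₂) ^ 3 - (216 * L.g₃) ^ 2) := by
    field_simp
  rw [e1, e2, mul_div_mul_left _ _ (inv_ne_zero h12)]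

variable {t : ℂ}

/-- half-period data of `m⁻¹ L` for odd `m`. -/
lemma P_half_scale {m : ℕ} (hm : Odd m) (hm0 : ((m : ℂ))⁻¹ ≠ 0) (h : IsHalf L t) :
    ℘[scaleP (m : ℂ)⁻¹ hm0 L] t = (m : ℂ) ^ 2 * ℘[L] t := by
  have hm' : (m : ℂ) ≠ 0 := fun h0 => hm0 (by rw [h0, inv_zero])
  have e : t = (m : ℂ)⁻¹ * (m * t) := by rw [inv_mul_cancel_left₀ hm']
  conv_lhs => rw [e]
  rw [P_scaleP]
  obtain ⟨k, rfl⟩ := hm
  have e2 : (((2 * k + 1 : ℕ)) : ℂ) * t = t + (k : ℤ) • (2 * t) := by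
    rw [zsmul_eq_mul]; push_cast; ring
  rw [e2, P_add_mem (zsmul_mem h.two_mem _)]
  congr 1
  field_simp

lemma bet_half_scale {m : ℕ} (hm : Odd m) (hm0 : ((m : ℂ))⁻¹ ≠ 0) (h : IsHalf L t) :
    bet (scaleP (m : ℂ)⁻¹ hm0 L) t = (m : ℂ) ^ 4 * bet L t := by
  have hm' : (m : ℂ) ≠ 0 := fun h0 => hm0 (by rw [h0, inv_zero])
  unfold bet
  rw [P_half_scale hm hm0 h, g2_scaleP]
  field_simp

/-- `j` in terms of `B = 12 e` and `β`. -/
def jBb (B b : ℂ) : ℂ := (B ^ 2 - 48 * b) ^ 3 / (b ^ 2 * (B ^ 2 - 64 * b))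

lemma disc_eq_bet (h : IsHalf L t) :
    (12 * L.g₂) ^ 3 - (216 * L.g₃) ^ 2 =
      1728 * (bet L t ^ 2 * ((12 * ℘[L] t) ^ 2 - 64 * bet L t)) := by
  rw [h.g3, bet]
  ring

lemma jLat_eq (h : IsHalf L t) : jLat L = jBb (12 * ℘[L] t) (bet L t) := by
  have e1 : 12 * L.g₂ = (12 * ℘[L] t) ^ 2 - 48 * bet L t := by rw [bet]; ring
  rw [jLat, disc_eq_bet h, e1, jBb, mul_div_mul_left _ _ (by norm_num : (1728 : ℂ) ≠ 0)]

end

end Fermat.Agent.WP
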