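import Fermat.Agent.WP.Scale

set_option autoImplicit false

/-!
# Lattices attached to finite subgroups
-/

namespace Fermat.Agent.WP

open PeriodPair Filter Topology WeierstrassCurve WeierstrassCurve.Affine
  WeierstrassCurve.Affine.Point Fermat.Agent.ECP

noncomputable section

lemma finrank_lattice_aux (L : PeriodPair) (M : Submodule ℤ ℂ) (hle : L.lattice ≤ M) (n : ℕ)
    (hn : 0 < n) (h : ∀ x ∈ M, (n : ℂ) * x ∈ L.lattice) :
    Module.Finite ℤ M ∧ Module.finrank ℤ M = 2 := by
  have hn0 : (n : ℂ) ≠ 0 := by exact_mod_cast hn.ne'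
  have hfin : Module.Finite ℤ L.lattice := Module.Finite.of_basis L.latticeBasis
  let f : M →ₗ[ℤ] L.lattice :=
    { toFun := fun x => ⟨(n : ℂ) * x, h x x.2⟩
      map_add' := fun x y => Subtype.ext (by simp [mul_add])
      map_smul' := fun a x => Subtype.ext (by simp [mul_left_comm]) }
  have hf : Function.Injective f := by
    intro x y hxy
    have h1 : (n : ℂ) * x = (n : ℂ) * y := congrArg Subtype.val hxy
    exact Subtype.ext (mul_left_cancel₀ hn0 h1)
  have hfinM : Module.Finite ℤ M := Module.Finite.of_injective f hf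
  refine ⟨hfinM, le_antisymm ?_ ?_⟩
  · have := LinearMap.finrank_le_finrank_of_injective hf
    rwa [L.finrank_lattice] at this
  · have := LinearMap.finrank_le_finrank_of_injective
      (f := Submodule.inclusion hle) (Submodule.inclusion_injective hle)
    rwa [L.finrank_lattice] at this

theorem exists_periodPair (L : PeriodPair) (M : Submodule ℤ ℂ) (hle : L.lattice ≤ M) (n : ℕ)
    (hn : 0 < n) (h : ∀ x ∈ M, (n : ℂ) * x ∈ L.lattice) : ∃ L' : PeriodPair, L'.lattice = M := by
  obtain ⟨hfin, h2⟩ := finrank_lattice_aux L M hle n hn h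
  have hfree : Module.Free ℤ M := inferInstance
  let b : Module.Basis (Fin 2) ℤ M := Module.finBasisOfFinrankEq ℤ M h2
  have hspan : Submodule.span ℤ {((b 0 : M) : ℂ), ((b 1 : M) : ℂ)} = M := by
    have h1 : Submodule.span ℤ (Set.range b) = ⊤ := b.span_eq
    have h3 := congrArg (Submodule.map M.subtype) h1
    rw [Submodule.map_span, Submodule.map_top, Submodule.range_subtype, ← Set.range_comp] at h3
    refine Eq.trans ?_ h3
    congr 1
    ext x
    simp only [Set.mem_insert_iff, Set.mem_singleton_iff, Set.mem_range, Function.comp_apply,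
      Submodule.subtype_apply, Fin.exists_fin_two]
    constructor
    · rintro (h | h)
      · exact Or.inl h.symm
      · exact Or.inr h.symm
    · rintro (h | h)
      · exact Or.inl h.symm
      · exact Or.inr h.symm
  have hind : LinearIndependent ℝ ![((b 0 : M) : ℂ), ((b 1 : M) : ℂ)] := by
    apply linearIndependent_of_top_le_span_of_card_eq_finrank
    · have h3 : (⊤ : Submodule ℝ ℂ) ≤ Submodule.span ℝ (Set.range ![L.ω₁, L.ω₂]) := by
        have := L.indep.span_eq_top_of_card_eq_finrank' (by
          rw [Fintype.card_fin]; exact Complex.finrank_real_complex.symm)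
        rw [this]
      refine h3.trans (Submodule.span_le.mpr ?_)
      have h4 : ∀ x ∈ M, x ∈ Submodule.span ℝ (Set.range ![((b 0 : M) : ℂ), ((b 1 : M) : ℂ)]) := by
        intro x hx
        rw [← hspan] at hx
        have h5 : Submodule.span ℤ {((b 0 : M) : ℂ), ((b 1 : M) : ℂ)} ≤
            (Submodule.span ℝ (Set.range ![((b 0 : M) : ℂ), ((b 1 : M) : ℂ)])).restrictScalars ℤ := by
          rw [Submodule.span_le]
          rintro y (rfl | rfl)
          · exact Submodule.subset_span ⟨0, rfl⟩
          · exact Submodule.subset_span ⟨1, rfl⟩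
        exact h5 hx
      rintro _ ⟨i, rfl⟩
      fin_cases i
      · exact h4 _ (hle L.ω₁_mem_lattice)
      · exact h4 _ (hle L.ω₂_mem_lattice)
    · rw [Fintype.card_fin]; exact Complex.finrank_real_complex.symm
  exact ⟨⟨_, _, hind⟩, hspan⟩

variable {L : PeriodPair} {W : WeierstrassCurve ℂ} [W.IsElliptic] (h : Unif L W)

/-- the preimage of a subgroup under the uniformization -/
def preim (C : AddSubgroup W.toAffine.Point) : Submodule ℤ ℂ :=
  AddSubgroup.toIntSubmodule (C.comap (psiHom h))

lemma mem_preim {C : AddSubgroup W.toAffine.Point} {z : ℂ} : z ∈ preim h C ↔ psi h z ∈ C :=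
  Iff.rfl

/-- a section of the uniformization -/
def sec (P : W.toAffine.Point) : ℂ :=
  letI := Classical.propDecidable
  if P = 0 then 0 else (psi_surjective h P).choose

lemma psi_sec (P : W.toAffine.Point) : psi h (sec h P) = P := by
  unfold sec
  split_ifs with h0
  · rw [h0, psi_of_mem h (zero_mem _)]
  · exact (psi_surjective h P).choose_spec

lemma sec_zero : sec h 0 = 0 := by simp [sec]

lemma sec_injective : Function.Injective (sec h) :=
  Function.LeftInverse.injective (psi_sec h)

theorem exists_lattice (C : AddSubgroup W.toAffine.Point) (hC : (C : Set W.toAffine.Point).Finite) :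
    ∃ L' : PeriodPair, L'.lattice = preim h C := by
  have hfin : Finite C := hC
  refine exists_periodPair L (preim h C) ?_ (Nat.card C) Nat.card_pos ?_
  · intro x hx
    rw [mem_preim, psi_of_mem h hx]
    exact zero_mem C
  · intro x hx
    rw [mem_preim] at hx
    rw [← psi_eq_zero_iff h, psi_nsmul]
    have := card_nsmul_eq_zero' (G := C) (x := ⟨psi h x, hx⟩)
    exact congrArg Subtype.val this

open Classical in
theorem reps_of_subgroup (C : AddSubgroup W.toAffine.Point) (Cf : Finset W.toAffine.Point)
    (hCf : ∀ P, P ∈ Cf ↔ P ∈ C) {L' : PeriodPair} (hL' : L'.lattice = preim h C) :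
    Reps L L' (Cf.image (sec h)) where
  le := by
    intro x hx
    rw [hL', mem_preim, psi_of_mem h hx]
    exact zero_mem C
  zero_mem := Finset.mem_image.mpr ⟨0, (hCf 0).mpr (zero_mem C), sec_zero h⟩
  mem := by
    intro s hs
    obtain ⟨P, hP, rfl⟩ := Finset.mem_image.mp hs
    rw [hL', mem_preim, psi_sec]
    exact (hCf P).mp hP
  exists_rep := by
    intro x hx
    rw [hL', mem_preim] at hx
    refine ⟨sec h (psi h x), Finset.mem_image.mpr ⟨_, (hCf _).mpr hx, rfl⟩, ?_⟩
    rw [← psi_eq_iff h, psi_sec]
  unique := by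
    intro s hs s' hs' hss
    obtain ⟨P, hP, rfl⟩ := Finset.mem_image.mp hs
    obtain ⟨P', hP', rfl⟩ := Finset.mem_image.mp hs'
    rw [← psi_eq_iff h, psi_sec, psi_sec] at hss
    rw [hss]

end

end Fermat.Agent.WP
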