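import Fermat.Agent.WP.Exist

set_option autoImplicit false

/-!
# `℘` of a superlattice
-/

namespace Fermat.Agent.WP

open PeriodPair Filter Topology

noncomputable section

/-- `S` is a set of representatives of `L'.lattice` modulo `L.lattice`. -/
structure Reps (L L' : PeriodPair) (S : Finset ℂ) : Prop where
  le : L.lattice ≤ L'.lattice
  zero_mem : (0 : ℂ) ∈ S
  mem : ∀ s ∈ S, s ∈ L'.lattice
  exists_rep : ∀ x ∈ L'.lattice, ∃ s ∈ S, x - s ∈ L.lattice
  unique : ∀ s ∈ S, ∀ s' ∈ S, s - s' ∈ L.lattice → s = s'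

variable {L L' : PeriodPair} {S : Finset ℂ}

lemma analyticAt_P_sub {x s : ℂ} (h : x - s ∉ L.lattice) :
    AnalyticAt ℂ (fun z => ℘[L] (z - s)) x :=
  (analyticAt_P h).comp_of_eq (g := ℘[L]) (f := fun z => z - s) (by fun_prop) rfl

/-- the sum over representatives -/
def sumP (L : PeriodPair) (S : Finset ℂ) (z : ℂ) : ℂ := ∑ s ∈ S, ℘[L] (z - s)

lemma Reps.not_mem (R : Reps L L' S) {x s s' : ℂ} (hs : s ∈ S) (hs' : s' ∈ S) (hne : s' ≠ s)
    (h : x - s ∈ L.lattice) : x - s' ∉ L.lattice := by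
  intro h'
  apply hne
  refine R.unique s' hs' s hs ?_
  have := sub_mem h h'
  simpa using this

lemma Reps.not_mem' (R : Reps L L' S) {x s : ℂ} (hs : s ∈ S) (h : x ∉ L'.lattice) :
    x - s ∉ L.lattice := by
  intro h'
  apply h
  have := add_mem (R.le h') (R.mem s hs)
  simpa using this

/-- near a point of `L'`, `℘' - ℘(z - s₀)` is analytic -/
lemma exists_analytic_diff {x s : ℂ} (hx : x ∈ L'.lattice) (h : x - s ∈ L.lattice) :
    ∃ g : ℂ → ℂ, AnalyticAt ℂ g x ∧ (∀ z, ℘[L'] z - ℘[L] (z - s) = g z) ∧ g x = 0 := by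
  obtain ⟨u, hu, hu'⟩ := exists_P_eq (L := L)
  obtain ⟨v, hv, hv'⟩ := exists_P_eq (L := L')
  refine ⟨fun z => (z - x) ^ 2 * (v (z - x) - u (z - x)), ?_, fun z => ?_, ?_⟩
  · have h1 : AnalyticAt ℂ (fun z => v (z - x)) x :=
      hv.comp_of_eq (f := fun z => z - x) (by fun_prop) (sub_self x)
    have h2 : AnalyticAt ℂ (fun z => u (z - x)) x :=
      hu.comp_of_eq (f := fun z => z - x) (by fun_prop) (sub_self x)
    have h3 : AnalyticAt ℂ (fun z => (z - x) ^ 2) x := by fun_prop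
    exact h3.mul (h1.sub h2)
  · have e1 : ℘[L'] z = ℘[L'] (z - x) := (P_sub_mem hx).symm
    have e2 : ℘[L] (z - s) = ℘[L] (z - x) := by
      have := P_add_mem (L := L) (z := z - x) h
      rw [← this]; congr 1; ring
    rw [e1, e2, hu' (z - x), hv' (z - x)]
    ring
  · simp

theorem P_sup (R : Reps L L' S) {z : ℂ} (hz : z ∉ L'.lattice) :
    ℘[L'] z = sumP L S z - ∑ s ∈ S, ℘[L] s := by
  classical
  set f : ℂ → ℂ := fun z => ℘[L'] z - sumP L S z with hf
  have hsum : ∀ x, MeromorphicAt (sumP L S) x := fun x => by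
    unfold sumP
    exact MeromorphicAt.fun_sum (fun s _ => meromorphicAt_P_sub s x)
  have hfm : ∀ x, MeromorphicAt f x := fun x => (meromorphicAt_P x).sub (hsum x)
  have hper : ∀ z, ∀ l ∈ L.lattice, f (z + l) = f z := by
    intro z l hl
    simp only [hf, sumP, P_add_mem (R.le hl)]
    congr 1
    refine Finset.sum_congr rfl fun s _ => ?_
    rw [show z + l - s = z - s + l by ring, P_add_mem hl]
  have hsplit : ∀ {x s₀ : ℂ}, x ∈ L'.lattice → s₀ ∈ S → x - s₀ ∈ L.lattice →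
      ∃ g : ℂ → ℂ, AnalyticAt ℂ g x ∧ (∀ z, f z = g z) ∧
        g x = - ∑ s ∈ S.erase s₀, ℘[L] (x - s) := by
    intro x s₀ hx hs₀ h
    obtain ⟨g, hg, hg', hg0⟩ := exists_analytic_diff (L := L) hx h
    refine ⟨fun z => g z - ∑ s ∈ S.erase s₀, ℘[L] (z - s), ?_, fun z => ?_, ?_⟩
    · refine hg.sub (Finset.analyticAt_fun_sum _ fun s hs => ?_)
      rw [Finset.mem_erase] at hs
      exact analyticAt_P_sub (R.not_mem hs₀ hs.2 hs.1 h)
    · simp only [hf, sumP, ← hg' z]
      rw [← Finset.add_sum_erase _ _ hs₀]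
      ring
    · simp only [hg0, zero_sub]
  have han : ∀ {x : ℂ}, x ∉ L'.lattice → AnalyticAt ℂ f x := by
    intro x hx
    refine (analyticAt_P hx).sub ?_
    unfold sumP
    exact Finset.analyticAt_fun_sum _ fun s hs => analyticAt_P_sub (R.not_mem' hs hx)
  have hord : ∀ x, 0 ≤ meromorphicOrderAt f x := by
    intro x
    by_cases hx : x ∈ L'.lattice
    · obtain ⟨s₀, hs₀, h⟩ := R.exists_rep x hx
      obtain ⟨g, hg, hg', -⟩ := hsplit hx hs₀ h
      have : f = g := funext hg'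
      rw [this]
      exact hg.meromorphicOrderAt_nonneg
    · exact (han hx).meromorphicOrderAt_nonneg
  obtain ⟨c, hc⟩ := liouville L hfm hord hper
  obtain ⟨g, hg, hg', hg0⟩ := hsplit (zero_mem _) R.zero_mem (by simp)
  have hfg : f = g := funext hg'
  have h0 : f 0 = c := hc 0 (by rw [hfg]; exact hg.continuousAt)
  have h1 : f z = c := hc z (han hz).continuousAt
  have h2 : f 0 = - ∑ s ∈ S, ℘[L] s := by
    rw [hfg, hg0, ← Finset.add_sum_erase S (fun s => ℘[L] s) R.zero_mem, L.weierstrassP_zero,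
      zero_add]
    congr 1
    refine Finset.sum_congr rfl fun s _ => ?_
    rw [zero_sub, L.weierstrassP_neg]
  have h3 : ℘[L'] z - sumP L S z = - ∑ s ∈ S, ℘[L] s := by
    rw [← h2, h0, ← h1]
  linear_combination h3

end

end Fermat.Agent.WP
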