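import Fermat.Agent.WP.Half

set_option autoImplicit false

/-!
# The half-period data of a superlattice of odd index
-/

namespace Fermat.Agent.WP

open PeriodPair Filter Topology

noncomputable section

variable {L L' : PeriodPair} {S : Finset ℂ} {t : ℂ}

/-- `t` is a half period for both lattices. -/
structure HalfReps (L L' : PeriodPair) (S : Finset ℂ) (t : ℂ) : Prop extends Reps L L' S where
  two_mem : 2 * t ∈ L.lattice
  not_mem : t ∉ L'.lattice

lemma HalfReps.half (H : HalfReps L L' S t) : IsHalf L t :=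
  ⟨fun h => H.not_mem (H.le h), H.two_mem⟩

lemma HalfReps.half' (H : HalfReps L L' S t) : IsHalf L' t := ⟨H.not_mem, H.le H.two_mem⟩

lemma HalfReps.add_not_mem (H : HalfReps L L' S t) {s : ℂ} (hs : s ∈ L'.lattice) :
    s + t ∉ L.lattice := fun h => H.not_mem (by simpa using sub_mem (H.le h) hs)

/-- the value at the half period: `e' = e + Σ (β/X_s - X_s)` -/
theorem P_half_sup (H : HalfReps L L' S t) :
    ℘[L'] t = ℘[L] t + ∑ s ∈ S.erase 0, (bet L t / XX L t s - XX L t s) := by
  rw [P_sup H.toReps H.not_mem, sumP, ← Finset.add_sum_erase _ _ H.zero_mem,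
    ← Finset.add_sum_erase _ (fun s => ℘[L] s) H.zero_mem, L.weierstrassP_zero, sub_zero,
    zero_add, add_sub_assoc, ← Finset.sum_sub_distrib]
  congr 1
  refine Finset.sum_congr rfl fun s hs => ?_
  rw [Finset.mem_erase] at hs
  have hsL : s ∉ L.lattice := by
    intro h
    exact hs.1 (H.unique s hs.2 0 H.zero_mem (by simpa using h))
  have hst : s + t ∉ L.lattice := H.add_not_mem (H.mem s hs.2)
  have h1 := half_mul H.half hsL hst
  have h2 := XX_ne_zero H.half hsL hst
  have h3 : ℘[L] (t - s) = ℘[L] (s + t) := by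
    rw [← H.half.P_sub, ← L.weierstrassP_neg]; congr 1; ring
  rw [h3, ← h1, mul_div_cancel_left₀ _ h2]
  simp only [XX]
  ring

lemma meromorphicAt_XX_sub (s x : ℂ) : MeromorphicAt (fun z => XX L t (z - s)) x :=
  MeromorphicAt.comp_analyticAt (g := fun z => z - s) (meromorphicAt_XX (x - s)) (by fun_prop)

lemma order_XX_sub (s x : ℂ) :
    meromorphicOrderAt (fun z => XX L t (z - s)) x = meromorphicOrderAt (XX L t) (x - s) := by
  have : meromorphicOrderAt (fun z => XX L t (z + -s)) x = meromorphicOrderAt (XX L t) (x + -s) :=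
    meromorphicOrderAt_fun_comp_add_const_eq_meromorphicOrderAt
  simpa [sub_eq_add_neg] using this

/-- the product over representatives -/
def prodX (L : PeriodPair) (t : ℂ) (S : Finset ℂ) (z : ℂ) : ℂ := ∏ s ∈ S, XX L t (z - s)

lemma order_prodX (H : HalfReps L L' S t) (x : ℂ) :
    meromorphicOrderAt (prodX L t S) x = meromorphicOrderAt (XX L' t) x := by
  classical
  have h1 : meromorphicOrderAt (prodX L t S) x = ∑ s ∈ S, meromorphicOrderAt (XX L t) (x - s) := by
    have : prodX L t S = fun z => ∏ s ∈ S, (fun s z => XX L t (z - s)) s z := rfl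
    rw [this, meromorphicOrderAt_fun_prod (fun s _ => meromorphicAt_XX_sub s x)]
    exact Finset.sum_congr rfl fun s _ => order_XX_sub s x
  rw [h1]
  by_cases hx : x ∈ L'.lattice
  · obtain ⟨s₀, hs₀, h⟩ := H.exists_rep x hx
    rw [order_XX_mem hx, ← Finset.add_sum_erase _ _ hs₀, order_XX_mem h]
    rw [Finset.sum_eq_zero, add_zero]
    intro s hs
    rw [Finset.mem_erase] at hs
    refine order_XX_other H.half (H.toReps.not_mem hs₀ hs.2 hs.1 h) ?_
    exact H.add_not_mem (sub_mem hx (H.mem s hs.2))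
  · by_cases hxt : x + t ∈ L'.lattice
    · obtain ⟨s₀, hs₀, h⟩ := H.exists_rep _ hxt
      have h' : x - s₀ + t ∈ L.lattice := by rwa [show x - s₀ + t = x + t - s₀ by ring]
      rw [order_XX_half H.half' hxt, ← Finset.add_sum_erase _ _ hs₀, order_XX_half H.half h']
      rw [Finset.sum_eq_zero, add_zero]
      intro s hs
      rw [Finset.mem_erase] at hs
      refine order_XX_other H.half (H.not_mem' hs.2 hx) ?_
      rw [show x - s + t = x + t - s by ring]
      exact H.toReps.not_mem hs₀ hs.2 hs.1 h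
    · rw [order_XX_other H.half' hx hxt]
      refine Finset.sum_eq_zero fun s hs => ?_
      refine order_XX_other H.half (H.not_mem' hs hx) ?_
      rw [show x - s + t = x + t - s by ring]
      exact H.not_mem' hs hxt

lemma tendsto_sq_mul_XX : Tendsto (fun z => z ^ 2 * XX L t z) (𝓝[≠] 0) (𝓝 1) := by
  have h1 := tendsto_sq_mul_P (L := L)
  have h2 : Tendsto (fun z : ℂ => z ^ 2 * ℘[L] t) (𝓝[≠] 0) (𝓝 (0 ^ 2 * ℘[L] t)) :=
    (Continuous.tendsto (by fun_prop) 0).mono_left nhdsWithin_le_nhds
  have h3 := h1.sub h2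
  rw [zero_pow two_ne_zero, zero_mul, sub_zero] at h3
  refine h3.congr fun z => ?_
  simp only [XX]; ring

lemma order_ne_top (h : IsHalf L t) (x : ℂ) : meromorphicOrderAt (XX L t) x ≠ ⊤ := by
  by_cases hx : x ∈ L.lattice
  · rw [order_XX_mem hx]; exact WithTop.coe_ne_top
  · by_cases hxt : x + t ∈ L.lattice
    · rw [order_XX_half h hxt]; exact WithTop.coe_ne_top
    · rw [order_XX_other h hx hxt]; exact WithTop.coe_ne_top

/-- **Product formula.** -/
theorem prodX_eq (H : HalfReps L L' S t) {z : ℂ} (hz : z ∉ L'.lattice) (hzt : z + t ∉ L'.lattice) :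
    prodX L t S z = (∏ s ∈ S.erase 0, XX L t s) * XX L' t z := by
  classical
  set f : ℂ → ℂ := fun z => prodX L t S z * (XX L' t z)⁻¹ with hf
  have hprod : ∀ x, MeromorphicAt (prodX L t S) x := fun x =>
    MeromorphicAt.fun_prod (fun s _ => meromorphicAt_XX_sub s x)
  have hfm : ∀ x, MeromorphicAt f x := fun x => (hprod x).mul (meromorphicAt_XX x).inv
  have hper : ∀ z, ∀ l ∈ L.lattice, f (z + l) = f z := by
    intro z l hl
    simp only [hf, prodX, XX_add_mem (H.le hl)]
    congr 1
    refine Finset.prod_congr rfl fun s _ => ?_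
    rw [show z + l - s = z - s + l by ring, XX_add_mem hl]
  have hord : ∀ x, meromorphicOrderAt f x = 0 := by
    intro x
    have h1 : meromorphicOrderAt f x = meromorphicOrderAt (prodX L t S) x +
        meromorphicOrderAt (XX L' t)⁻¹ x := by
      have : f = prodX L t S * (XX L' t)⁻¹ := rfl
      rw [this, meromorphicOrderAt_mul (hprod x) (meromorphicAt_XX x).inv]
    rw [h1, order_prodX H, meromorphicOrderAt_inv]
    have := order_ne_top H.half' x
    induction hx : meromorphicOrderAt (XX L' t) x using WithTop.recTopCoe with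
    | top => exact absurd hx this
    | coe n =>
      have : ((n : ℤ) : WithTop ℤ) + -(n : WithTop ℤ) = ((n + -n : ℤ) : WithTop ℤ) := rfl
      rw [this, add_neg_cancel]; rfl
  have han : ∀ {x : ℂ}, x ∉ L'.lattice → x + t ∉ L'.lattice → AnalyticAt ℂ f x := by
    intro x hx hxt
    refine AnalyticAt.mul (Finset.analyticAt_fun_prod _ fun s hs => ?_)
      ((analyticAt_XX hx).inv (XX_ne_zero H.half' hx hxt))
    exact (analyticAt_XX (H.not_mem' hs hx)).comp_of_eq (g := XX L t) (f := fun z => z - s)
      (by fun_prop) rfl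
  obtain ⟨c, hc⟩ := liouville L hfm (fun x => (hord x).ge) hper
  have h1 : f z = c := hc z (han hz hzt).continuousAt
  -- the limit at `0`
  have h2 : Tendsto f (𝓝[≠] 0) (𝓝 c) := by
    refine tendsto_const_nhds.congr' ?_
    have e2 := eventually_nhdsNE_not_mem (L := L') 0
    have e3 := (tendsto_add_nhdsNE 0 t).eventually (eventually_nhdsNE_not_mem (L := L') (0 + t))
    filter_upwards [e2, e3] with w h2 h3
    exact (hc w (han h2 h3).continuousAt).symm
  have h3 : Tendsto (fun z => (z ^ 2 * XX L t z) * (∏ s ∈ S.erase 0, XX L t (z - s)) *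
      (z ^ 2 * XX L' t z)⁻¹) (𝓝[≠] 0) (𝓝 (1 * (∏ s ∈ S.erase 0, XX L t (0 - s)) * 1⁻¹)) := by
    refine (tendsto_sq_mul_XX.mul ?_).mul (tendsto_sq_mul_XX.inv₀ one_ne_zero)
    have : ContinuousAt (fun z => ∏ s ∈ S.erase 0, XX L t (z - s)) 0 := by
      refine AnalyticAt.continuousAt (𝕜 := ℂ) (Finset.analyticAt_fun_prod _ fun s hs => ?_)
      rw [Finset.mem_erase] at hs
      have hsL : (0 : ℂ) - s ∉ L.lattice := by
        intro h
        exact hs.1 (H.unique 0 H.zero_mem s hs.2 h).symm
      exact (analyticAt_XX hsL).comp_of_eq (g := XX L t) (f := fun z => z - s)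
        (by fun_prop) rfl
    exact this.tendsto.mono_left nhdsWithin_le_nhds
  have h4 : Tendsto f (𝓝[≠] 0) (𝓝 (1 * (∏ s ∈ S.erase 0, XX L t (0 - s)) * 1⁻¹)) := by
    refine h3.congr' ?_
    filter_upwards [self_mem_nhdsWithin] with z hz
    have hz0 : z ≠ 0 := hz
    simp only [hf, prodX]
    rw [← Finset.mul_prod_erase S _ H.zero_mem, sub_zero, mul_inv]
    field_simp
  have h5 := tendsto_nhds_unique h2 h4
  have h6 : ∏ s ∈ S.erase 0, XX L t (0 - s) = ∏ s ∈ S.erase 0, XX L t s := by
    refine Finset.prod_congr rfl fun s _ => ?_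
    simp only [XX, zero_sub, L.weierstrassP_neg]
  rw [h6, one_mul, inv_one, mul_one] at h5
  have hne := XX_ne_zero H.half' hz hzt
  rw [← h5, ← h1]
  simp only [hf]
  rw [inv_mul_cancel_right₀ hne]

/-- **The `β` of a superlattice.** -/
theorem bet_sup (H : HalfReps L L' S t) :
    bet L' t * (∏ s ∈ S.erase 0, XX L t s) ^ 2 = bet L t ^ S.card := by
  classical
  -- a generic point
  obtain ⟨z, hz, hzt⟩ : ∃ z, z ∉ L'.lattice ∧ z + t ∉ L'.lattice := by
    have e2 := eventually_nhdsNE_not_mem (L := L') 0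
    have e3 := (tendsto_add_nhdsNE 0 t).eventually (eventually_nhdsNE_not_mem (L := L') (0 + t))
    exact (e2.and e3).exists
  have hztt : z + t + t ∉ L'.lattice := by
    intro h
    apply hz
    have := sub_mem h H.half'.two_mem
    rwa [show z + t + t - 2 * t = z by ring] at this
  have e1 := prodX_eq H hz hzt
  have e2 := prodX_eq H hzt hztt
  have e3 := half_mul H.half' hz hzt
  have e4 : prodX L t S z * prodX L t S (z + t) = bet L t ^ S.card := by
    unfold prodX
    rw [← Finset.prod_mul_distrib, Finset.prod_eq_pow_card]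
    intro s hs
    rw [show z + t - s = z - s + t by ring]
    refine half_mul H.half (H.not_mem' hs hz) ?_
    rw [show z - s + t = z + t - s by ring]
    exact H.not_mem' hs hzt
  rw [← e4, e1, e2, ← e3]
  ring

end

end Fermat.Agent.WP
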