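import Fermat.Agent.WP.AddX2

set_option autoImplicit false

/-!
# Surjectivity of `℘`
-/

namespace Fermat.Agent.WP

open PeriodPair Filter Topology

variable {L : PeriodPair}

/-- `℘` takes every value. -/
theorem exists_P_eq_val (c : ℂ) : ∃ z, z ∉ L.lattice ∧ ℘[L] z = c := by
  by_contra hcon
  push Not at hcon
  -- `1/(℘ - c)` is analytic off the lattice, and has a zero on the lattice.
  set f : ℂ → ℂ := fun z => (℘[L] z - c)⁻¹ with hf
  have hfm : ∀ z, MeromorphicAt f z := fun z => by
    have := meromorphicAt_P (L := L) z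
    exact (this.sub (MeromorphicAt.const c z)).inv
  have hper : ∀ z, ∀ l ∈ L.lattice, f (z + l) = f z := by
    intro z l hl
    simp only [hf, P_add_mem hl]
  have hlim : Tendsto f (𝓝[≠] 0) (𝓝 0) := by
    obtain ⟨u, hu, hu'⟩ := exists_P_eq (L := L)
    have h1 : ContinuousAt (fun z : ℂ => z ^ 2 * (1 + z ^ 4 * u z - c * z ^ 2)⁻¹) 0 := by
      have := hu.continuousAt
      refine ContinuousAt.mul (by fun_prop) (ContinuousAt.inv₀ (by fun_prop) ?_)
      simp
    have h2 := h1.tendsto.mono_left (nhdsWithin_le_nhds (s := {(0 : ℂ)}ᶜ))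
    simp only [ne_eq, OfNat.ofNat_ne_zero, not_false_eq_true, zero_pow, zero_mul] at h2
    refine h2.congr' ?_
    filter_upwards [self_mem_nhdsWithin] with z hz
    have hz0 : z ≠ 0 := hz
    simp only [hf]
    rw [hu' z]
    have e : (1 / z ^ 2 + z ^ 2 * u z - c) = (1 + z ^ 4 * u z - c * z ^ 2) / z ^ 2 := by
      field_simp
    rw [e, inv_div, div_eq_mul_inv]
  have hord : ∀ z, 0 ≤ meromorphicOrderAt f z := by
    intro z
    by_cases hz : z ∈ L.lattice
    · rw [order_of_mem hper hz]
      have := (tendsto_zero_iff_meromorphicOrderAt_pos (hfm 0)).mp hlim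
      exact this.le
    · have h1 : AnalyticAt ℂ f z :=
        ((analyticAt_P hz).sub analyticAt_const).inv (sub_ne_zero.mpr (hcon z hz))
      exact h1.meromorphicOrderAt_nonneg
  obtain ⟨k, hk⟩ := liouville L hfm hord hper
  have hk0 : k = 0 := by
    refine tendsto_nhds_unique ?_ hlim
    refine tendsto_const_nhds.congr' ?_
    filter_upwards [eventually_not_mem (L := L)] with z hz
    refine (hk z ?_).symm
    exact (((analyticAt_P hz).sub analyticAt_const).inv
      (sub_ne_zero.mpr (hcon z hz))).continuousAt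
  -- a point off the lattice
  obtain ⟨z, hz⟩ := (eventually_not_mem (L := L)).exists
  have h1 := hk z (((analyticAt_P hz).sub analyticAt_const).inv
      (sub_ne_zero.mpr (hcon z hz))).continuousAt
  rw [hk0] at h1
  exact (inv_ne_zero (sub_ne_zero.mpr (hcon z hz))) h1

end Fermat.Agent.WP
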