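import Fermat.Agent.WP.SubLat
import Fermat.Agent.X0Places.Scale

set_option autoImplicit false

/-!
# Cyclic isogenies of prime degree: `(j, j') = (j(τ), j(pτ))`
-/

namespace Fermat.Agent.WP

open PeriodPair Fermat.Agent.JInv Fermat.Agent.X0Places UpperHalfPlane

noncomputable section

lemma omega2_ne_zero (M : PeriodPair) : M.ω₂ ≠ 0 := by
  have := M.indep.ne_zero 1
  simpa using this

lemma im_ne_zero (M : PeriodPair) : (M.ω₁ / M.ω₂).im ≠ 0 := by
  intro h0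
  have h2 := omega2_ne_zero M
  have h := M.indep
  rw [LinearIndependent.pair_iff] at h
  have e : M.ω₁ = ((M.ω₁ / M.ω₂).re : ℂ) * M.ω₂ := by
    have : (M.ω₁ / M.ω₂) = ((M.ω₁ / M.ω₂).re : ℂ) := by
      apply Complex.ext <;> simp [h0]
    rw [← this, div_mul_cancel₀ _ h2]
  have := h 1 (-(M.ω₁ / M.ω₂).re) (by
    simp only [Complex.real_smul]
    push_cast
    linear_combination e)
  exact one_ne_zero this.1

lemma exists_tau_eps (M : PeriodPair) : ∃ (τ : ℍ) (ε : ℤ), ε * ε = 1 ∧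
    M.ω₁ = ε * (M.ω₂ * (τ : ℂ)) := by
  have h2 := omega2_ne_zero M
  rcases lt_or_gt_of_ne (im_ne_zero M) with h | h
  · refine ⟨⟨-(M.ω₁ / M.ω₂), by simpa using h⟩, -1, by norm_num, ?_⟩
    show M.ω₁ = ((-1 : ℤ) : ℂ) * (M.ω₂ * -(M.ω₁ / M.ω₂))
    push_cast
    field_simp
  · refine ⟨⟨M.ω₁ / M.ω₂, h⟩, 1, by norm_num, ?_⟩
    show M.ω₁ = ((1 : ℤ) : ℂ) * (M.ω₂ * (M.ω₁ / M.ω₂))
    push_cast
    field_simp

lemma lattice_eq_pairOf {M : PeriodPair} {τ : ℍ} {ε : ℤ} (hε : ε * ε = 1)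
    (h : M.ω₁ = ε * (M.ω₂ * (τ : ℂ))) :
    M.lattice = (pairOf τ M.ω₂ (omega2_ne_zero M)).lattice := by
  have hε' : (ε : ℂ) * ε = 1 := by exact_mod_cast hε
  ext x
  rw [mem_lattice, mem_pairOf]
  constructor
  · rintro ⟨m, n, rfl⟩
    refine ⟨m * ε, n, ?_⟩
    rw [h]; push_cast; ring
  · rintro ⟨m, n, rfl⟩
    refine ⟨m * ε, n, ?_⟩
    rw [h]; push_cast
    linear_combination ((m : ℂ) * (M.ω₂ * (τ : ℂ))) * hε'

/-- the pair `(u, v/p)` -/
def divPair (M : PeriodPair) (p : ℕ) (hp : 0 < p) : PeriodPair :=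
  ⟨M.ω₁, M.ω₂ / p, by
    have h := M.indep
    have hp' : (p : ℝ) ≠ 0 := by exact_mod_cast hp.ne'
    rw [LinearIndependent.pair_iff] at h ⊢
    intro a b hab
    have := h a (b / p) (by
      rw [← hab]
      simp only [Complex.real_smul]
      push_cast
      ring)
    refine ⟨this.1, ?_⟩
    have h2 := this.2
    rw [div_eq_zero_iff] at h2
    exact h2.resolve_right hp'⟩

lemma mem_divPair {M : PeriodPair} {p : ℕ} {hp : 0 < p} {x : ℂ} :
    x ∈ (divPair M p hp).lattice ↔ ∃ m n : ℤ, m * M.ω₁ + n * (M.ω₂ / p) = x := mem_lattice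

lemma divPair_lattice {M : PeriodPair} {p : ℕ} (hp : 0 < p) {τ : ℍ} {ε : ℤ} (hε : ε * ε = 1)
    (h : M.ω₁ = ε * (M.ω₂ * (τ : ℂ))) :
    (divPair M p hp).lattice = (pairOf (scaleH p hp τ) (M.ω₂ / p)
      (div_ne_zero (omega2_ne_zero M) (by exact_mod_cast hp.ne'))).lattice := by
  have hε' : (ε : ℂ) * ε = 1 := by exact_mod_cast hε
  have hp' : (p : ℂ) ≠ 0 := by exact_mod_cast hp.ne'
  ext x
  rw [mem_divPair, mem_pairOf]
  simp only [coe_scaleH]
  constructor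
  · rintro ⟨m, n, rfl⟩
    refine ⟨m * ε, n, ?_⟩
    rw [h]; push_cast; field_simp
  · rintro ⟨m, n, rfl⟩
    refine ⟨m * ε, n, ?_⟩
    rw [h]; push_cast
    field_simp
    linear_combination (M.ω₂ * (m : ℂ) * p * (τ : ℂ)) * hε'

theorem exists_tau_of_pair (M : PeriodPair) {p : ℕ} (hp : 0 < p) : ∃ τ : ℍ,
    jLat M = jInv τ ∧ jLat (divPair M p hp) = jInv (scaleH p hp τ) := by
  obtain ⟨τ, ε, hε, h⟩ := exists_tau_eps M
  refine ⟨τ, ?_, ?_⟩
  · rw [jLat_congr (lattice_eq_pairOf hε h), jLat_pairOf]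
  · rw [jLat_congr (divPair_lattice hp hε h), jLat_pairOf]

/-- adapted basis -/
lemma exists_adapted_aux (L : PeriodPair) {p : ℕ} (hp : p.Prime) {c : ℂ} {a b : ℤ}
    (hab : (p : ℂ) * c = a * L.ω₁ + b * L.ω₂) (hb : ¬ (p : ℤ) ∣ b) :
    ∃ M : PeriodPair, M.lattice = L.lattice ∧
      ∀ x, x ∈ (divPair M p hp.pos).lattice ↔ ∃ k : ℤ, x - k * c ∈ L.lattice := by
  have hcop : IsCoprime b (p : ℤ) :=
    ((Nat.prime_iff_prime_int.mp hp).coprime_iff_not_dvd.mpr hb).symm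
  obtain ⟨k, l, hkl⟩ := hcop
  have hp' : (p : ℂ) ≠ 0 := by exact_mod_cast hp.ne_zero
  have hklC : (k : ℂ) * b + l * p = 1 := by exact_mod_cast hkl
  -- basis `(ω₁, k a ω₁ + ω₂)`
  have hind : LinearIndependent ℝ ![L.ω₁, (k * a : ℤ) * L.ω₁ + L.ω₂] := by
    have h := L.indep
    rw [LinearIndependent.pair_iff] at h ⊢
    intro s t hst
    have := h (s + t * (k * a : ℤ)) t (by
      rw [← hst]
      simp only [Complex.real_smul]
      push_cast
      ring)
    have ht : t = 0 := this.2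
    refine ⟨?_, ht⟩
    have h1 := this.1
    rwa [ht, zero_mul, add_zero] at h1
  refine ⟨⟨L.ω₁, (k * a : ℤ) * L.ω₁ + L.ω₂, hind⟩, ?_, ?_⟩
  · ext x
    rw [mem_lattice, mem_lattice]
    constructor
    · rintro ⟨m, n, rfl⟩
      refine ⟨m + n * (k * a), n, ?_⟩
      push_cast; ring
    · rintro ⟨m, n, rfl⟩
      refine ⟨m - n * (k * a), n, ?_⟩
      push_cast; ring
  · intro x
    rw [mem_divPair]
    simp only [mem_lattice]
    constructor
    · rintro ⟨m, n, rfl⟩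
      -- `v/p = k c + l ω₂`
      refine ⟨n * k, m, n * l, ?_⟩
      push_cast
      have e : ((k : ℂ) * a * L.ω₁ + L.ω₂) / p = k * c + l * L.ω₂ := by
        rw [div_eq_iff hp']
        linear_combination (-(k : ℂ)) * hab - L.ω₂ * hklC
      rw [e]
      ring
    · rintro ⟨j, m, n, hx⟩
      -- `c = b (v/p) + l (p c) - b l ω₂`
      have e : c = b * (((k : ℂ) * a * L.ω₁ + L.ω₂) / p) + l * (p * c) - b * l * L.ω₂ := by
        field_simp
        linear_combination (1 - (l : ℂ) * p) * hab - (a * L.ω₁) * hklC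
      have hx' : x = m * L.ω₁ + n * L.ω₂ + j * c := by linear_combination -hx
      -- coordinates in the basis `u = ω₁, w = v/p`
      refine ⟨m + j * (l * a) - (n + j * (l * b) - j * (b * l)) * (k * a),
        (n + j * (l * b) - j * (b * l)) * p + j * b, ?_⟩
      rw [hx', e, hab]
      push_cast
      field_simp
      ring

theorem exists_adapted (L : PeriodPair) {p : ℕ} (hp : p.Prime) {c : ℂ} (hc : c ∉ L.lattice)
    (hpc : (p : ℂ) * c ∈ L.lattice) :
    ∃ M : PeriodPair, M.lattice = L.lattice ∧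
      ∀ x, x ∈ (divPair M p hp.pos).lattice ↔ ∃ k : ℤ, x - k * c ∈ L.lattice := by
  obtain ⟨a, b, hab⟩ := mem_lattice.mp hpc
  by_cases hb : (p : ℤ) ∣ b
  · by_cases ha : (p : ℤ) ∣ a
    · exfalso
      apply hc
      obtain ⟨a', rfl⟩ := ha
      obtain ⟨b', rfl⟩ := hb
      have hp' : (p : ℂ) ≠ 0 := by exact_mod_cast hp.ne_zero
      rw [mem_lattice]
      refine ⟨a', b', ?_⟩
      apply mul_left_cancel₀ hp'
      rw [← hab]; push_cast; ring
    · -- swap
      have hind : LinearIndependent ℝ ![L.ω₂, L.ω₁] := by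
        have h := L.indep
        rw [LinearIndependent.pair_iff] at h ⊢
        intro s t hst
        have := h t s (by rw [← hst, add_comm])
        exact ⟨this.2, this.1⟩
      have hlat : (⟨L.ω₂, L.ω₁, hind⟩ : PeriodPair).lattice = L.lattice := by
        ext x
        rw [mem_lattice, mem_lattice]
        constructor
        · rintro ⟨m, n, rfl⟩
          exact ⟨n, m, by ring⟩
        · rintro ⟨m, n, rfl⟩
          exact ⟨n, m, by ring⟩
      obtain ⟨M, hM, hM'⟩ := exists_adapted_aux ⟨L.ω₂, L.ω₁, hind⟩ hp (c := c) (a := b) (b := a)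
        (by rw [← hab]; ring) ha
      refine ⟨M, hM.trans hlat, fun x => ?_⟩
      rw [hM' x, hlat]
  · exact exists_adapted_aux L hp hab.symm hb

theorem exists_tau {L L' : PeriodPair} {p : ℕ} (hp : p.Prime) {c : ℂ} (hc : c ∉ L.lattice)
    (hpc : (p : ℂ) * c ∈ L.lattice)
    (hL' : ∀ x, x ∈ L'.lattice ↔ ∃ k : ℤ, x - k * c ∈ L.lattice) : ∃ τ : ℍ,
    jLat L = jInv τ ∧ jLat L' = jInv (scaleH p hp.pos τ) := by
  obtain ⟨M, hM, hM'⟩ := exists_adapted L hp hc hpc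
  obtain ⟨τ, h1, h2⟩ := exists_tau_of_pair M hp.pos
  refine ⟨τ, ?_, ?_⟩
  · rw [← h1]; exact jLat_congr hM.symm
  · rw [← h2]
    apply jLat_congr
    ext x
    rw [hL', hM']

end

end Fermat.Agent.WP
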